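import Fermat.Agent.S48.H428.NormGen
import Fermat.Agent.S48.H136.ESKGFrob

/-!
# S48 / RES (Tower A1) — node A1-NORM, generic part in the shape of `H136.NormIdG` (helper428)

`normIdG_of_embeddings` : the hypothesis `NormIdG α β p δ` of helper136's generic raw
Eichler–Shimura engine (`H136.eskG_frob`), for ANY `F₀ ⊆ ℚ((q))`, ANY field `F'` with a
`q`-expansion `cF' : F' →+* ℚ̄((q))`, `α` = inclusion and `β = V_p` on `q`-expansions, from

* the degree bound `[F' : α F] ≤ p + 1`,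
* `p` embeddings `σ b : F' →+* Ω` over `Ψ ∘ V_p` with `σ b (β y) = Ψ ((δ y)(ζ^b u))`,
* one `y₀` such that `δ y₀` has a nonzero coefficient at an index prime to `p`.

`normIdG_of_embeddings_jq` : the last hypothesis is automatic when `j ∈ F₀` and `δ` fixes `j`.
-/

set_option autoImplicit false
set_option linter.style.haveILetI false

noncomputable section

open ModularCurve AlgebraicCurve

namespace Fermat.Agent.S48.H428

open Fermat.Agent.S18 (Qb)
open Fermat.Agent.S48.H136 (NormIdG normG kron2)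
open Fermat.Agent.S37

variable {F₀ : IntermediateField ℚ (LaurentSeries ℚ)} {F' : Type*} [Field F'] [Algebra Qb F']

/-- **A1-NORM, generic, `NormIdG` shape.** -/
theorem normIdG_of_embeddings (α β : laurentBaseChange Qb F₀ →ₐ[Qb] F') {p : ℕ} [NeZero p]
    (hp : p.Prime) (δ : laurentBaseChange Qb F₀ ≃ₐ[Qb] laurentBaseChange Qb F₀)
    (cF' : F' →+* LaurentSeries Qb)
    (hα : ∀ y, cF' (α y) = (y : LaurentSeries Qb))
    (hβ : ∀ y, cF' (β y) = qExpand Qb p (y : LaurentSeries Qb))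
    (hfin : FiniteAlong Qb α) (hdeg : finrankAlong Qb α ≤ p + 1)
    {ζ : Qb} (hζ : IsPrimitiveRoot ζ p)
    {Ω : Type*} [Field Ω] (Ψ : LaurentSeries Qb →+* Ω) (σ : Fin p → F' →+* Ω)
    (hσα : ∀ b y, σ b (α y) = Ψ (qExpand Qb p (y : LaurentSeries Qb)))
    (hσβ : ∀ b y, σ b (β y)
      = Ψ (H340.tw p (ζ ^ (b : ℕ)) ((δ y : laurentBaseChange Qb F₀) : LaurentSeries Qb)))
    (hdist : ∃ y₀ : laurentBaseChange Qb F₀, ∃ n : ℤ, ¬ (p : ℤ) ∣ n ∧
      ((δ y₀ : laurentBaseChange Qb F₀) : LaurentSeries Qb).coeff n ≠ 0) :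
    NormIdG α β p δ := by
  intro y
  exact normId_of_embeddings (K := Qb) p hp
    (cF := (laurentBaseChange Qb F₀).val.toRingHom) (cF' := cF')
    α.toRingHom β.toRingHom hα hβ hfin hdeg (fun y => δ y) hζ Ψ σ hσα hσβ hdist y

/-- The distinctness hypothesis of `normIdG_of_embeddings` holds as soon as `j ∈ F₀` and `δ`
fixes `j`. -/
theorem hdist_of_jq {p : ℕ} (hp : p.Prime)
    (δ : laurentBaseChange Qb F₀ ≃ₐ[Qb] laurentBaseChange Qb F₀) (hj : jq ∈ F₀)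
    (hδj : ∀ y : laurentBaseChange Qb F₀, (y : LaurentSeries Qb) = coeffEmb Qb jq → δ y = y) :
    ∃ y₀ : laurentBaseChange Qb F₀, ∃ n : ℤ, ¬ (p : ℤ) ∣ n ∧
      ((δ y₀ : laurentBaseChange Qb F₀) : LaurentSeries Qb).coeff n ≠ 0 := by
  refine ⟨⟨coeffEmb Qb jq, coeffEmb_mem_laurentBaseChange Qb hj⟩, -1, ?_, ?_⟩
  · intro h
    have h1 : (p : ℤ) ∣ 1 := (dvd_neg.mp h)
    have h2 : p ∣ 1 := by exact_mod_cast h1
    exact hp.one_lt.ne' (Nat.dvd_one.mp h2)
  · rw [hδj _ rfl]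
    show (coeffEmb Qb jq).coeff (-1) ≠ 0
    rw [coeffEmb_coeff, coeff_jq_neg_one, map_one]
    exact one_ne_zero

/-- **A1-NORM, generic, `NormIdG` shape**, for a diamond fixing `j ∈ F₀`. -/
theorem normIdG_of_embeddings_jq (α β : laurentBaseChange Qb F₀ →ₐ[Qb] F') {p : ℕ} [NeZero p]
    (hp : p.Prime) (δ : laurentBaseChange Qb F₀ ≃ₐ[Qb] laurentBaseChange Qb F₀)
    (cF' : F' →+* LaurentSeries Qb)
    (hα : ∀ y, cF' (α y) = (y : LaurentSeries Qb))
    (hβ : ∀ y, cF' (β y) = qExpand Qb p (y : LaurentSeries Qb))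
    (hfin : FiniteAlong Qb α) (hdeg : finrankAlong Qb α ≤ p + 1)
    {ζ : Qb} (hζ : IsPrimitiveRoot ζ p)
    {Ω : Type*} [Field Ω] (Ψ : LaurentSeries Qb →+* Ω) (σ : Fin p → F' →+* Ω)
    (hσα : ∀ b y, σ b (α y) = Ψ (qExpand Qb p (y : LaurentSeries Qb)))
    (hσβ : ∀ b y, σ b (β y)
      = Ψ (H340.tw p (ζ ^ (b : ℕ)) ((δ y : laurentBaseChange Qb F₀) : LaurentSeries Qb)))
    (hj : jq ∈ F₀)
    (hδj : ∀ y : laurentBaseChange Qb F₀, (y : LaurentSeries Qb) = coeffEmb Qb jq → δ y = y) :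
    NormIdG α β p δ :=
  normIdG_of_embeddings α β hp δ cF' hα hβ hfin hdeg hζ Ψ σ hσα hσβ (hdist_of_jq hp δ hj hδj)

end Fermat.Agent.S48.H428
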