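import Fermat.Agent.S48.H428.NormSigma
import Fermat.Agent.S48.H428.NormGenG
import Fermat.Agent.S48.H848.DiaFinal
import Fermat.Agent.S48.H150.HI1

/-!
# S48 / RES (Tower A1) — NORMID1 (helper428): the norm identity for `F1(M; p) / α F1(M)`

`normId1_of_deg : DegAlpha1Statement → H136.NormId1Statement`, where the only remaining input is
the degree bound `[ℚ̄·F1(M; p) : α(ℚ̄·F1(M))] ≤ p + 1`.

The `p` embeddings are `σ_b = (expansion of (avatar) ∘ h_b)`, `h_b ∈ Γ₁(M)` with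
`diag(p,1) h_b = δ_b [[1,b],[0,p]]`, `δ_b ∈ Γ₀(M)`, `(δ_b)₀₀ ≡ p`; the remaining one is `V_p`
(handled inside `normIdG_of_embeddings_jq`).
-/

set_option autoImplicit false
set_option linter.unusedSectionVars false
set_option linter.style.haveILetI false

noncomputable section

open ModularCurve HahnSeries UpperHalfPlane AlgebraicCurve
open scoped MatrixGroups

namespace Fermat.Agent.S48.H428

open Fermat.Agent.S24 Fermat.Agent.S24.H997 Fermat.Agent.S48.F1 CongruenceSubgroup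
open Fermat.Agent.S37

/-! ### The root of unity -/

/-- `ζ ∈ ℚ̄` with `ιK ζ = exp(2πi/p)`. -/
theorem exists_zeta_p (p : ℕ) [NeZero p] :
    ∃ ζ : Kbar, IsPrimitiveRoot ζ p ∧ ιK ζ = ((infRoot 1 p : ℂˣ) : ℂ) := by
  have hp0 : p ≠ 0 := NeZero.ne p
  obtain ⟨ξ, hξ⟩ := HasEnoughRootsOfUnity.exists_primitiveRoot Kbar p
  have hξ' : IsPrimitiveRoot (ιK ξ) p := hξ.map_of_injective ιK_injective
  have hprim : IsPrimitiveRoot (Complex.exp (2 * Real.pi * Complex.I / p)) p :=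
    Complex.isPrimitiveRoot_exp p hp0
  obtain ⟨i, -, hi⟩ := hξ'.eq_pow_of_pow_eq_one hprim.pow_eq_one
  refine ⟨ξ ^ i, ?_, ?_⟩
  · have h2 : IsPrimitiveRoot (ιK (ξ ^ i)) p := by
      rw [map_pow, hi]
      exact hprim
    exact IsPrimitiveRoot.of_map_of_injective h2 ιK_injective
  · rw [map_pow, hi, infRoot_coe]
    congr 1
    push_cast
    ring

theorem infRoot_pow_g (b : ℤ) (n d : ℕ) : (infRoot b n) ^ d = infRoot ((d : ℤ) * b) n := by
  apply Units.ext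
  rw [Units.val_pow_eq_pow_val, infRoot_coe, infRoot_coe, ← Complex.exp_nat_mul]
  congr 1
  push_cast
  ring

theorem infRoot_pow_self (b : ℤ) (n : ℕ) [NeZero n] : ((infRoot b n : ℂˣ) : ℂ) ^ n = 1 := by
  rw [infRoot_coe, ← Complex.exp_nat_mul]
  have hn : (n : ℂ) ≠ 0 := by exact_mod_cast NeZero.ne n
  have e : (n : ℂ) * (2 * Real.pi * Complex.I * b / n) = (b : ℂ) * (2 * Real.pi * Complex.I) := by
    field_simp
  rw [e]
  exact Complex.exp_int_mul_two_pi_mul_I b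

theorem tw_eq_infTwist_g {R : Type*} [CommRing R] (ℓ : ℕ) [NeZero ℓ] (u : Rˣ)
    (hu : (u : R) ^ ℓ = 1) (f : LaurentSeries R) :
    H340.tw ℓ (u : R) f = infTwist u f := by
  ext n
  rw [H340.tw_coeff, infTwist_coeff, mul_comm]
  congr 1
  have hℓ : (ℓ : ℤ) ≠ 0 := by exact_mod_cast NeZero.ne ℓ
  have hu' : u ^ ℓ = 1 := Units.ext (by rw [Units.val_pow_eq_pow_val, hu, Units.val_one])
  unfold H340.zpw
  have h1 : n = n % (ℓ : ℤ) + (ℓ : ℤ) * (n / (ℓ : ℤ)) := (Int.emod_add_mul_ediv n ℓ).symm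
  have h0 : 0 ≤ n % (ℓ : ℤ) := Int.emod_nonneg n hℓ
  have h2 : ((n % (ℓ : ℤ)).toNat : ℤ) = n % (ℓ : ℤ) := Int.toNat_of_nonneg h0
  have h3 : u ^ n = u ^ (n % (ℓ : ℤ)).toNat := by
    conv_lhs => rw [h1, zpow_add, zpow_mul, zpow_natCast, hu', one_zpow, mul_one, ← h2,
      zpow_natCast]
  rw [← Units.val_pow_eq_pow_val, ← h3]

theorem coeffMap_tw_g {R S : Type*} [CommRing R] [CommRing S] (φ : R →+* S) (ℓ : ℕ) [NeZero ℓ]
    (ζ : R) (w : LaurentSeries R) :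
    coeffMap φ (H340.tw ℓ ζ w) = H340.tw ℓ (φ ζ) (coeffMap φ w) := by
  ext n
  rw [coeffMap_coeff, H340.tw_coeff, H340.tw_coeff, coeffMap_coeff, map_mul]
  congr 1
  unfold H340.zpw
  rw [map_pow]

theorem coeffMap_tw_zeta {p : ℕ} [NeZero p] {ζ : Kbar}
    (hζ : ιK ζ = ((infRoot 1 p : ℂˣ) : ℂ)) (b : ℕ) (w : LaurentSeries Kbar) :
    coeffMap ιK (H340.tw p (ζ ^ b) w) = infTwist (infRoot (b : ℤ) p) (coeffMap ιK w) := by
  rw [coeffMap_tw_g, map_pow, hζ]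
  have e : ((infRoot 1 p : ℂˣ) : ℂ) ^ b = ((infRoot (b : ℤ) p : ℂˣ) : ℂ) := by
    rw [← Units.val_pow_eq_pow_val, infRoot_pow_g, mul_one]
  rw [e]
  exact tw_eq_infTwist_g p (infRoot (b : ℤ) p) (infRoot_pow_self _ p) _

/-! ### The statement -/

/-- **DEG**: `[ℚ̄·F1(M; p) : α (ℚ̄·F1(M))] ≤ p + 1`. -/
def DegAlpha1Statement : Prop :=
  ∀ (M p : ℕ) [NeZero p], M ≠ 0 → p.Prime → ¬ p ∣ M →
    finrankAlong Kbar (alpha1 Kbar M p) ≤ p + 1

section Pieces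

variable (M p : ℕ) [NeZero M] [NeZero p] [NeZero (M * p)]

variable {M p} in
theorem sigF_alpha_V {g : SL(2, ℤ)} (hg : g ∈ Gamma1 M) (y : ↥(F1L Kbar M)) :
    sigF M p g (alpha1 Kbar M p y) = HolBase.Φ M (qExpand Kbar p (y : LaurentSeries Kbar)) := by
  rw [sigF_alpha hg y, Φ_qExpand_g]

variable {M p} in
theorem sigF_beta_tw {g δ : SL(2, ℤ)} {b : ℕ} (hδ0 : δ ∈ Gamma0 M)
    (hδp : ((δ 0 0 : ℤ) : ZMod M) = (p : ZMod M))
    (h00 : (p : ℤ) * g 0 0 = δ 0 0 * (1 : ℕ))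
    (h01 : (p : ℤ) * g 0 1 = δ 0 0 * ((b : ℕ) : ℤ) + δ 0 1 * p)
    (h10 : g 1 0 = δ 1 0 * (1 : ℕ)) (h11 : g 1 1 = δ 1 0 * ((b : ℕ) : ℤ) + δ 1 1 * p)
    {u : (ZMod M)ˣ} (hu : (u : ZMod M) = (p : ZMod M))
    {dia : ↥(F1L Kbar M) ≃ₐ[Kbar] ↥(F1L Kbar M)} (hdia : IsDiamond Kbar M u dia)
    {ζ : Kbar} (hζ : ιK ζ = ((infRoot 1 p : ℂˣ) : ℂ))
    (y : ↥(F1L Kbar M)) :
    sigF M p g (beta1 Kbar M p y)
      = HolBase.Φ M (H340.tw p (ζ ^ b) ((dia y : ↥(F1L Kbar M)) : LaurentSeries Kbar)) := by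
  rw [sigF_beta hδ0 hδp h00 h01 h10 h11 hu hdia y]
  have e : HolBase.Φ M (H340.tw p (ζ ^ b) ((dia y : ↥(F1L Kbar M)) : LaurentSeries Kbar))
      = qExpand ℂ M (coeffMap ιK
          (H340.tw p (ζ ^ b) ((dia y : ↥(F1L Kbar M)) : LaurentSeries Kbar))) := rfl
  rw [e, coeffMap_tw_zeta hζ]

theorem diamond_fix_jq {u : (ZMod M)ˣ}
    {dia : ↥(F1L Kbar M) ≃ₐ[Kbar] ↥(F1L Kbar M)} (hdia : IsDiamond Kbar M u dia)
    (y : ↥(F1L Kbar M)) (hy : (y : LaurentSeries Kbar) = coeffEmb Kbar jq) : dia y = y := by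
  refine hdia.1 y ?_
  rw [hy]
  refine coeffEmb_mem_laurentBaseChange Kbar ?_
  have h1 := jqd_mem_full (N := M) (one_dvd M)
  rwa [qExpand_one_apply] at h1

end Pieces

/-- **NORMID1 at `(M; p)`** from the degree bound. -/
theorem normIdG_alpha1_of_deg (M p : ℕ) [NeZero p] (hM : M ≠ 0) (hp : p.Prime) (hpM : ¬ p ∣ M)
    (hfin : FiniteAlong Kbar (alpha1 Kbar M p))
    (hdeg : finrankAlong Kbar (alpha1 Kbar M p) ≤ p + 1) :
    H136.NormIdG (alpha1 Kbar M p) (beta1 Kbar M p) p (diamondAut Kbar M (unitOf M p)) := by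
  haveI : NeZero M := ⟨hM⟩
  haveI : NeZero (M * p) := ⟨Nat.mul_ne_zero hM hp.ne_zero⟩
  have hcop : Nat.Coprime M p := ((Nat.Prime.coprime_iff_not_dvd hp).mpr hpM).symm
  have hdia : IsDiamond Kbar M (unitOf M p) (diamondAut Kbar M (unitOf M p)) :=
    H848.isDiamond_diamondAut_848 M (unitOf M p)
  have hu : ((unitOf M p : (ZMod M)ˣ) : ZMod M) = (p : ZMod M) := coe_unitOf M hcop.symm
  obtain ⟨ζ, hζ, hζι⟩ := exists_zeta_p p
  choose h δ hh hδ0 hδp h00 h01 h10 h11 using fun b : Fin p => exists_rep1 hcop ((b : ℕ) : ℤ)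
  have hα : ∀ y : ↥(F1L Kbar M), (F1pL Kbar M p).val.toRingHom (alpha1 Kbar M p y)
      = (y : LaurentSeries Kbar) := fun y => coe_alpha1 Kbar M p y
  have hβ : ∀ y : ↥(F1L Kbar M), (F1pL Kbar M p).val.toRingHom (beta1 Kbar M p y)
      = qExpand Kbar p (y : LaurentSeries Kbar) := fun y => coe_beta1 Kbar M p y
  have hσα : ∀ (b : Fin p) (y : ↥(F1L Kbar M)), sigF M p (h b) (alpha1 Kbar M p y)
      = HolBase.Φ M (qExpand Kbar p (y : LaurentSeries Kbar)) :=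
    fun b y => sigF_alpha_V (hh b) y
  have hσβ : ∀ (b : Fin p) (y : ↥(F1L Kbar M)), sigF M p (h b) (beta1 Kbar M p y)
      = HolBase.Φ M (H340.tw p (ζ ^ (b : ℕ))
          ((diamondAut Kbar M (unitOf M p) y : ↥(F1L Kbar M)) : LaurentSeries Kbar)) :=
    fun b y => sigF_beta_tw (hδ0 b) (hδp b) (h00 b) (h01 b) (h10 b) (h11 b) hu hdia hζι y
  exact normIdG_of_embeddings_jq (alpha1 Kbar M p) (beta1 Kbar M p) hp
    (diamondAut Kbar M (unitOf M p)) (F1pL Kbar M p).val.toRingHom hα hβ hfin hdeg hζ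
    (HolBase.Φ M) (fun b => sigF M p (h b)) hσα hσβ (jq_mem_F1 M) (diamond_fix_jq M hdia)

/-- **NORMID1** from the degree bound (finiteness: helper150's `hi1`). -/
theorem normId1_of_deg (hdeg : DegAlpha1Statement) : H136.NormId1Statement := by
  intro M p _ hM hp hpM
  have hfin : FiniteAlong Kbar (alpha1 Kbar M p) := by
    obtain ⟨_, _, _, hfin, _⟩ := H150.hi1 M p hM hp hpM
    exact hfin
  exact normIdG_alpha1_of_deg M p hM hp hpM hfin (hdeg M p hM hp hpM)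

end Fermat.Agent.S48.H428
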