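import Mathlib

/-!
# S48 / P5 (helper428): abstract fixed point counting

`exists_index_le_two_or_index_le`: a finite group `G` acting on a set `P`, with a normal
subgroup `Z` acting trivially, such that every `g ∉ Z` has exactly two fixed points, has a point
stabilizer of index `≤ 2`, or `[G : Z] ≤ 60`.

(Classical counting proof of the classification of finite subgroups of `PGL₂`: cyclic, dihedral,
`A₄`, `S₄`, `A₅`.)
-/

set_option autoImplicit false
set_option linter.style.haveILetI false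

namespace Fermat.Agent.S48.H428

open MulAction

/-- The arithmetic of three orbits: `(2,2,m)`, `(2,3,3)`, `(2,3,4)`, `(2,3,5)`. -/
lemma three_orbits_arith (n m0 m1 m2 t0 t1 t2 : ℕ)
    (hm0 : 3 ≤ m0) (hm1 : 3 ≤ m1) (hm2 : 3 ≤ m2)
    (ht0 : 2 ≤ t0) (ht1 : 2 ≤ t1) (ht2 : 2 ≤ t2)
    (h0 : m0 * t0 = n) (h1 : m1 * t1 = n) (h2 : m2 * t2 = n)
    (hsum : m0 + m1 + m2 = n + 2) : n ≤ 60 := by
  have key : ∀ m t : ℕ, 2 ≤ t → m * t = n →
      (n = 2 * m ∨ n = 3 * m ∨ n = 4 * m ∨ n = 5 * m ∨ 6 * m ≤ n) := by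
    intro m t ht hmt
    have : t = 2 ∨ t = 3 ∨ t = 4 ∨ t = 5 ∨ 6 ≤ t := by omega
    rcases this with rfl | rfl | rfl | rfl | h6
    · left; omega
    · right; left; omega
    · right; right; left; omega
    · right; right; right; left; omega
    · right; right; right; right
      calc 6 * m = m * 6 := by ring
        _ ≤ m * t := Nat.mul_le_mul_left m h6
        _ = n := hmt
  rcases key m0 t0 ht0 h0 with a | a | a | a | a <;>
  rcases key m1 t1 ht1 h1 with b | b | b | b | b <;>
  rcases key m2 t2 ht2 h2 with c | c | c | c | c <;>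
  omega

section Counting

variable {G : Type*} [Group G] {P : Type*} [MulAction G P]

/-- The poles: the points fixed by some element outside `Z`. -/
def poles (Z : Subgroup G) [hZ : Z.Normal] : SubMulAction G P where
  carrier := {x | ∃ g : G, g ∉ Z ∧ g • x = x}
  smul_mem' := by
    rintro h x ⟨g, hg, hx⟩
    refine ⟨h * g * h⁻¹, fun hc => hg ?_, ?_⟩
    · have := hZ.conj_mem _ hc h⁻¹
      simpa [mul_assoc] using this
    · rw [mul_smul, mul_smul, inv_smul_smul, hx]

lemma mem_poles {Z : Subgroup G} [Z.Normal] {x : P} :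
    x ∈ (poles Z : SubMulAction G P) ↔ ∃ g : G, g ∉ Z ∧ g • x = x := Iff.rfl

lemma finite_poles [Finite G] (Z : Subgroup G) [Z.Normal]
    (h2 : ∀ g : G, g ∉ Z → ∃ x y : P, x ≠ y ∧ ∀ p : P, g • p = p ↔ p = x ∨ p = y) :
    Finite (poles Z : SubMulAction G P) := by
  classical
  have hfin : ∀ g : G, g ∉ Z → (fixedBy P g).Finite := by
    intro g hg
    obtain ⟨x, y, -, h⟩ := h2 g hg
    refine (Set.toFinite ({x, y} : Set P)).subset fun p hp => ?_
    rcases (h p).mp hp with rfl | rfl <;> simp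
  have hsub : ((poles Z : SubMulAction G P) : Set P) ⊆ ⋃ g : {g : G // g ∉ Z}, fixedBy P g.1 := by
    rintro x ⟨g, hg, hx⟩
    exact Set.mem_iUnion.mpr ⟨⟨g, hg⟩, hx⟩
  exact Set.finite_coe_iff.mpr ((Set.finite_iUnion fun g : {g : G // g ∉ Z} =>
    hfin g.1 g.2).subset hsub)

lemma ncard_fixedBy_poles_of_mem (Z : Subgroup G) [Z.Normal]
    (hZ : ∀ z ∈ Z, ∀ x : P, z • x = x) {g : G} (hg : g ∈ Z) :
    Nat.card (fixedBy (poles Z : SubMulAction G P) g) = Nat.card (poles Z : SubMulAction G P) := by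
  have : fixedBy (poles Z : SubMulAction G P) g = Set.univ := by
    ext x
    simp only [mem_fixedBy, Set.mem_univ, iff_true]
    exact Subtype.ext (hZ g hg x)
  rw [this]
  exact Nat.card_congr (Equiv.Set.univ _)

lemma ncard_fixedBy_poles_of_not_mem (Z : Subgroup G) [Z.Normal]
    (h2 : ∀ g : G, g ∉ Z → ∃ x y : P, x ≠ y ∧ ∀ p : P, g • p = p ↔ p = x ∨ p = y)
    {g : G} (hg : g ∉ Z) :
    Nat.card (fixedBy (poles Z : SubMulAction G P) g) = 2 := by
  classical
  obtain ⟨x, y, hxy, h⟩ := h2 g hg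
  have hx : x ∈ (poles Z : SubMulAction G P) := ⟨g, hg, (h x).mpr (Or.inl rfl)⟩
  have hy : y ∈ (poles Z : SubMulAction G P) := ⟨g, hg, (h y).mpr (Or.inr rfl)⟩
  have : fixedBy (poles Z : SubMulAction G P) g = {⟨x, hx⟩, ⟨y, hy⟩} := by
    ext p
    simp only [mem_fixedBy, Set.mem_insert_iff, Set.mem_singleton_iff]
    constructor
    · intro hp
      have hp' : g • (p : P) = p := congrArg Subtype.val hp
      rcases (h p).mp hp' with e | e
      · exact Or.inl (Subtype.ext e)
      · exact Or.inr (Subtype.ext e)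
    · rintro (rfl | rfl)
      · exact Subtype.ext ((h x).mpr (Or.inl rfl))
      · exact Subtype.ext ((h y).mpr (Or.inr rfl))
  rw [this, Nat.card_coe_set_eq, Set.ncard_pair]
  exact fun e => hxy (congrArg Subtype.val e)

/-- Burnside's lemma for the action on the poles. -/
theorem burnside_poles [Finite G] (Z : Subgroup G) [Z.Normal]
    (hZ : ∀ z ∈ Z, ∀ x : P, z • x = x)
    (h2 : ∀ g : G, g ∉ Z → ∃ x y : P, x ≠ y ∧ ∀ p : P, g • p = p ↔ p = x ∨ p = y) :
    Nat.card Z * Nat.card (poles Z : SubMulAction G P) + 2 * (Nat.card G - Nat.card Z) =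
      Nat.card (Quotient (orbitRel G (poles Z : SubMulAction G P))) * Nat.card G := by
  classical
  haveI := finite_poles Z h2
  letI := Fintype.ofFinite G
  letI : ∀ g : G, Fintype (fixedBy (poles Z : SubMulAction G P) g) := fun g => Fintype.ofFinite _
  letI := Fintype.ofFinite (Quotient (orbitRel G (poles Z : SubMulAction G P)))
  have hB := sum_card_fixedBy_eq_card_orbits_mul_card_group G (poles Z : SubMulAction G P)
  simp only [← Nat.card_eq_fintype_card] at hB
  rw [← hB]
  have hval : ∀ g : G, Nat.card (fixedBy (poles Z : SubMulAction G P) g) =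
      if g ∈ Z then Nat.card (poles Z : SubMulAction G P) else 2 := by
    intro g
    split_ifs with hg
    · exact ncard_fixedBy_poles_of_mem Z hZ hg
    · exact ncard_fixedBy_poles_of_not_mem Z h2 hg
  simp_rw [hval]
  rw [Finset.sum_ite, Finset.sum_const, Finset.sum_const, smul_eq_mul, smul_eq_mul]
  have h1 : (Finset.univ.filter fun g : G => g ∈ Z).card = Nat.card Z := by
    rw [Nat.card_eq_fintype_card, Fintype.card_subtype]
  have h3 : (Finset.univ.filter fun g : G => g ∉ Z).card = Nat.card G - Nat.card Z := by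
    rw [Finset.filter_not, Finset.card_sdiff_of_subset (Finset.filter_subset _ _), h1,
      Finset.card_univ, ← Nat.card_eq_fintype_card]
  rw [h1, h3, mul_comm (Nat.card G - Nat.card Z) 2]

lemma card_poles_eq_sum [Finite G] (Z : Subgroup G) [Z.Normal]
    [Fintype (Quotient (orbitRel G (poles Z : SubMulAction G P)))] :
    Nat.card (poles Z : SubMulAction G P) =
      ∑ ω : Quotient (orbitRel G (poles Z : SubMulAction G P)), (stabilizer G ω.out).index := by
  rw [Nat.card_congr (selfEquivSigmaOrbitsQuotientStabilizer G (poles Z : SubMulAction G P)),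
    Nat.card_sigma]
  rfl

lemma stabilizer_pole_card [Finite G] (Z : Subgroup G) [Z.Normal]
    (hZ : ∀ z ∈ Z, ∀ x : P, z • x = x) (x : (poles Z : SubMulAction G P)) :
    ∃ k : ℕ, 2 ≤ k ∧ Nat.card (stabilizer G x) = Nat.card Z * k := by
  have hle : Z ≤ stabilizer G x := fun z hz => Subtype.ext (hZ z hz x)
  obtain ⟨k, hk⟩ := Subgroup.card_dvd_of_le hle
  refine ⟨k, ?_, hk⟩
  by_contra hk2
  have hk1 : k ≤ 1 := by omega
  have hcard : Nat.card (stabilizer G x) ≤ Nat.card Z := by
    rw [hk]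
    calc Nat.card Z * k ≤ Nat.card Z * 1 := Nat.mul_le_mul_left _ hk1
      _ = Nat.card Z := mul_one _
  have heq : Z = stabilizer G x := Subgroup.eq_of_le_of_card_ge hle hcard
  obtain ⟨g, hg, hgx⟩ := x.2
  exact hg (heq ▸ (show g ∈ stabilizer G x from Subtype.ext hgx))

/-- **Counting theorem.** A finite group `G` acting on `P`, with a normal subgroup `Z` acting
trivially and such that every `g ∉ Z` has exactly two fixed points, has a point stabilizer of
index `≤ 2`, or `[G : Z] ≤ 60`. -/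
theorem exists_index_le_two_or_index_le [Finite G] (Z : Subgroup G) [Z.Normal]
    (hZ : ∀ z ∈ Z, ∀ x : P, z • x = x)
    (h2 : ∀ g : G, g ∉ Z → ∃ x y : P, x ≠ y ∧ ∀ p : P, g • p = p ↔ p = x ∨ p = y) :
    (∃ x : P, (stabilizer G x).index ≤ 2) ∨ Z.index ≤ 60 := by
  classical
  by_contra hcon
  rw [not_or, not_exists] at hcon
  obtain ⟨hst, hZ60⟩ := hcon
  haveI := finite_poles Z h2
  letI := Fintype.ofFinite (Quotient (orbitRel G (poles Z : SubMulAction G P)))
  set Ω := Quotient (orbitRel G (poles Z : SubMulAction G P)) with hΩ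
  set N := Nat.card G with hN
  set z := Nat.card Z with hz
  set n := Z.index with hn
  have hnz : n * z = N := Subgroup.index_mul_card Z
  have hzpos : 0 < z := Nat.card_pos
  have hNpos : 0 < N := Nat.card_pos
  have hzN : z ≤ N := Subgroup.card_le_card_group Z
  -- data of the orbits
  set m : Ω → ℕ := fun ω => (stabilizer G ω.out).index with hm
  have hm3 : ∀ ω, 3 ≤ m ω := by
    intro ω
    have := hst ((ω.out : (poles Z : SubMulAction G P)) : P)
    rw [← SubMulAction.stabilizer_of_subMul] at this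
    simp only [hm]
    omega
  have hk : ∀ ω : Ω, ∃ k : ℕ, 2 ≤ k ∧ m ω * k = n := by
    intro ω
    obtain ⟨k, hk2, hk⟩ := stabilizer_pole_card Z hZ ω.out
    refine ⟨k, hk2, ?_⟩
    have h1 : m ω * Nat.card (stabilizer G ω.out) = N := Subgroup.index_mul_card _
    rw [hk] at h1
    have h2' : (m ω * k) * z = n * z := by rw [hnz, ← h1]; ring
    exact Nat.eq_of_mul_eq_mul_right hzpos h2'
  have hmle : ∀ ω : Ω, 2 * m ω ≤ n := by
    intro ω
    obtain ⟨k, hk2, hk⟩ := hk ω
    calc 2 * m ω = m ω * 2 := by ring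
      _ ≤ m ω * k := Nat.mul_le_mul_left _ hk2
      _ = n := hk
  have hB := burnside_poles Z hZ h2
  rw [card_poles_eq_sum Z, ← hN, ← hz, ← hnz] at hB
  -- divide by `z`
  have hB' : ∑ ω : Ω, m ω + 2 * (n - 1) = Nat.card Ω * n := by
    have e1 : n * z - z = (n - 1) * z := by rw [Nat.sub_mul, one_mul]
    rw [e1] at hB
    have : (∑ ω : Ω, m ω + 2 * (n - 1)) * z = (Nat.card Ω * n) * z := by
      calc (∑ ω : Ω, m ω + 2 * (n - 1)) * z
          = z * ∑ ω : Ω, (stabilizer G ω.out).index + 2 * ((n - 1) * z) := by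
            simp only [hm]; ring
        _ = Nat.card Ω * (n * z) := hB
        _ = (Nat.card Ω * n) * z := by ring
    exact Nat.eq_of_mul_eq_mul_right hzpos this
  have hn1 : 1 ≤ n := by
    rcases Nat.eq_zero_or_pos n with h0 | h0
    · rw [h0, zero_mul] at hnz; omega
    · exact h0
  have hsum_le : 2 * ∑ ω : Ω, m ω ≤ Nat.card Ω * n := by
    rw [Finset.mul_sum, Nat.card_eq_fintype_card, ← Finset.card_univ, ← smul_eq_mul]
    exact Finset.sum_le_card_nsmul _ _ _ fun ω _ => hmle ω
  have hr : Nat.card Ω ≤ 3 := by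
    by_contra h4
    have h4' : 4 ≤ Nat.card Ω := by omega
    have : 4 * n ≤ Nat.card Ω * n := Nat.mul_le_mul_right n h4'
    omega
  rw [Nat.card_eq_fintype_card] at hr hB' hsum_le
  have hcases : Fintype.card Ω = 0 ∨ Fintype.card Ω = 1 ∨ Fintype.card Ω = 2 ∨
      Fintype.card Ω = 3 := by omega
  rcases hcases with h0 | h1 | h2c | h3
  · -- no poles
    rw [h0] at hB'
    have : ∑ ω : Ω, m ω = 0 := by
      haveI : IsEmpty Ω := Fintype.card_eq_zero_iff.mp h0
      simp
    omega
  · obtain ⟨a, ha⟩ := Finset.card_eq_one.mp (Finset.card_univ.trans h1)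
    rw [h1, ha, Finset.sum_singleton] at hB'
    have := hm3 a
    have := hmle a
    omega
  · obtain ⟨a, b, hab, habu⟩ := Finset.card_eq_two.mp (Finset.card_univ.trans h2c)
    rw [h2c, habu, Finset.sum_pair hab] at hB'
    have := hm3 a
    have := hm3 b
    omega
  · obtain ⟨a, b, c, hab, hac, hbc, habu⟩ := Finset.card_eq_three.mp (Finset.card_univ.trans h3)
    rw [h3, habu, Finset.sum_insert (by simp [hab, hac]), Finset.sum_pair hbc] at hB'
    obtain ⟨ka, hka2, hka⟩ := hk a
    obtain ⟨kb, hkb2, hkb⟩ := hk b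
    obtain ⟨kc, hkc2, hkc⟩ := hk c
    have hsum : m a + m b + m c = n + 2 := by omega
    exact hZ60 (three_orbits_arith n (m a) (m b) (m c) ka kb kc (hm3 a) (hm3 b) (hm3 c)
      hka2 hkb2 hkc2 hka hkb hkc hsum)

end Counting

end Fermat.Agent.S48.H428
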