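import Mathlib

/-!
# S48 / P5 (helper428): `2 × 2` linear algebra

* `exists_two_fixed` : over an algebraically closed field `K`, a non-scalar `g ∈ GL₂(K)` of finite
  order prime to the characteristic has exactly two fixed points on `ℙ¹(K)`.
-/

set_option autoImplicit false

namespace Fermat.Agent.S48.H428

open scoped LinearAlgebra.Projectivization Matrix MatrixGroups

variable {K : Type*} [Field K]

/-- Cayley–Hamilton for `2 × 2` matrices. -/
lemma cayley_two (M : Matrix (Fin 2) (Fin 2) K) :
    M * M = M.trace • M - M.det • (1 : Matrix (Fin 2) (Fin 2) K) := by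
  ext i j
  fin_cases i <;> fin_cases j <;>
    simp [Matrix.mul_apply, Fin.sum_univ_two, Matrix.trace_fin_two, Matrix.det_fin_two] <;> ring

lemma det_sub_smul_one (M : Matrix (Fin 2) (Fin 2) K) (a : K) :
    (M - a • (1 : Matrix (Fin 2) (Fin 2) K)).det = a ^ 2 - M.trace * a + M.det := by
  simp [Matrix.det_fin_two, Matrix.trace_fin_two]
  ring

/-- An eigenvalue is a root of the characteristic polynomial. -/
lemma eigenvalue_root (M : Matrix (Fin 2) (Fin 2) K) {v : Fin 2 → K} (hv : v ≠ 0) {a : K}
    (h : M *ᵥ v = a • v) : a ^ 2 - M.trace * a + M.det = 0 := by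
  rw [← det_sub_smul_one]
  refine Matrix.exists_mulVec_eq_zero_iff.mp ⟨v, hv, ?_⟩
  rw [Matrix.sub_mulVec, Matrix.smul_mulVec, Matrix.one_mulVec, h, sub_self]

/-- Two vectors with vanishing determinant are proportional. -/
lemma proportional_of_det_eq_zero {x y : Fin 2 → K} (hx : x ≠ 0)
    (h : x 0 * y 1 - x 1 * y 0 = 0) : ∃ c : K, y = c • x := by
  by_cases h0 : x 0 = 0
  · have h1 : x 1 ≠ 0 := by
      intro h1
      apply hx
      ext i
      fin_cases i <;> simp [h0, h1]
    refine ⟨y 1 / x 1, ?_⟩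
    ext i
    fin_cases i
    · simp only [Fin.zero_eta, Pi.smul_apply, smul_eq_mul, h0, mul_zero]
      rw [h0, zero_mul, zero_sub, neg_eq_zero] at h
      exact (mul_eq_zero.mp h).resolve_left h1
    · simp only [Fin.mk_one, Pi.smul_apply, smul_eq_mul]
      field_simp
  · refine ⟨y 0 / x 0, ?_⟩
    ext i
    fin_cases i
    · simp only [Fin.zero_eta, Pi.smul_apply, smul_eq_mul]
      field_simp
    · simp only [Fin.mk_one, Pi.smul_apply, smul_eq_mul]
      field_simp
      linear_combination h

/-- A matrix killing two non-proportional vectors vanishes. -/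
lemma eq_zero_of_mulVec_eq_zero (A : Matrix (Fin 2) (Fin 2) K) {x y : Fin 2 → K}
    (h : x 0 * y 1 - x 1 * y 0 ≠ 0) (hx : A *ᵥ x = 0) (hy : A *ᵥ y = 0) : A = 0 := by
  have hx0 := congrFun hx 0
  have hx1 := congrFun hx 1
  have hy0 := congrFun hy 0
  have hy1 := congrFun hy 1
  simp only [Matrix.mulVec, dotProduct, Fin.sum_univ_two, Pi.zero_apply] at hx0 hx1 hy0 hy1
  ext i j
  fin_cases i <;> fin_cases j <;> simp only [Fin.zero_eta, Fin.mk_one, Matrix.zero_apply]
  · have : A 0 0 * (x 0 * y 1 - x 1 * y 0) = 0 := by linear_combination y 1 * hx0 - x 1 * hy0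
    exact (mul_eq_zero.mp this).resolve_right h
  · have : A 0 1 * (x 0 * y 1 - x 1 * y 0) = 0 := by linear_combination x 0 * hy0 - y 0 * hx0
    exact (mul_eq_zero.mp this).resolve_right h
  · have : A 1 0 * (x 0 * y 1 - x 1 * y 0) = 0 := by linear_combination y 1 * hx1 - x 1 * hy1
    exact (mul_eq_zero.mp this).resolve_right h
  · have : A 1 1 * (x 0 * y 1 - x 1 * y 0) = 0 := by linear_combination x 0 * hy1 - y 0 * hx1
    exact (mul_eq_zero.mp this).resolve_right h

/-- The kernel of a nonzero `2 × 2` matrix is at most a line. -/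
lemma ker_proportional (A : Matrix (Fin 2) (Fin 2) K) (hA : A ≠ 0) {x y : Fin 2 → K}
    (hx : x ≠ 0) (hAx : A *ᵥ x = 0) (hAy : A *ᵥ y = 0) : ∃ c : K, y = c • x := by
  by_cases h : x 0 * y 1 - x 1 * y 0 = 0
  · exact proportional_of_det_eq_zero hx h
  · exact absurd (eq_zero_of_mulVec_eq_zero A h hAx hAy) hA

/-- A matrix of finite order prime to the characteristic whose characteristic polynomial has a
double root is scalar. -/
lemma eq_smul_one_of_double_root (M : Matrix (Fin 2) (Fin 2) K) (a : K)
    (htr : M.trace = a + a) (hdet : M.det = a * a) (ha : a ≠ 0)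
    (m : ℕ) (hm : (m : K) ≠ 0) (hMm : M ^ m = 1) : M = a • (1 : Matrix (Fin 2) (Fin 2) K) := by
  set A : Matrix (Fin 2) (Fin 2) K := M - a • (1 : Matrix (Fin 2) (Fin 2) K) with hA
  have hM : M = a • (1 : Matrix (Fin 2) (Fin 2) K) + A := by rw [hA]; abel
  have hAA : A * A = 0 := by
    have h := cayley_two M
    rw [htr, hdet] at h
    rw [hA, sub_mul, mul_sub, mul_sub, h]
    simp only [Matrix.smul_mul, Matrix.mul_smul, Matrix.one_mul, Matrix.mul_one, smul_smul]
    ext i j
    simp only [Matrix.sub_apply, Matrix.smul_apply, Matrix.zero_apply, smul_eq_mul]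
    ring
  have hpow : ∀ k : ℕ, a • M ^ k = (a ^ (k + 1)) • (1 : Matrix (Fin 2) (Fin 2) K)
      + ((k : K) * a ^ k) • A := by
    intro k
    induction k with
    | zero => simp
    | succ k ih =>
      rw [pow_succ, ← Matrix.smul_mul, ih]
      conv_lhs => rw [hM]
      simp only [add_mul, mul_add, Matrix.smul_mul, Matrix.mul_smul, Matrix.one_mul,
        Matrix.mul_one, smul_smul, hAA, smul_zero, add_zero]
      ext i j
      simp only [Matrix.add_apply, Matrix.smul_apply, smul_eq_mul, Nat.cast_succ]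
      ring
  have h1 := hpow m
  rw [hMm] at h1
  -- multiply by `A`
  have h2 : (a - a ^ (m + 1)) • A = 0 := by
    have := congrArg (fun X => X * A) h1
    simp only [add_mul, Matrix.smul_mul, Matrix.one_mul, hAA, smul_zero, add_zero] at this
    rw [sub_smul, this, sub_self]
  by_contra hne
  have hA0 : A ≠ 0 := by
    intro h0
    apply hne
    rw [hM, h0, add_zero]
  have h3 : a - a ^ (m + 1) = 0 := by
    rcases smul_eq_zero.mp h2 with h | h
    · exact h
    · exact absurd h hA0
  have h4 : ((m : K) * a ^ m) • A = 0 := by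
    have e : a ^ (m + 1) = a := by linear_combination -h3
    rw [e] at h1
    exact left_eq_add.mp h1
  rcases smul_eq_zero.mp h4 with h | h
  · rcases mul_eq_zero.mp h with h | h
    · exact hm h
    · exact ha (pow_eq_zero_iff (by
        rintro rfl
        simp at hm) |>.mp h)
  · exact hA0 h

/-! ### Fixed points on the projective line -/

lemma smul_mk_eq_iff (g : GL (Fin 2) K) (v : Fin 2 → K) (hv : v ≠ 0) :
    g • Projectivization.mk K v hv = Projectivization.mk K v hv ↔
      ∃ a : K, (g : Matrix (Fin 2) (Fin 2) K) *ᵥ v = a • v := by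
  rw [Projectivization.smul_mk, Projectivization.mk_eq_mk_iff]
  constructor
  · rintro ⟨a, ha⟩
    exact ⟨(a : K), ha.symm⟩
  · rintro ⟨a, ha⟩
    have hgv : g • v ≠ 0 := (smul_ne_zero_iff_ne g).mpr hv
    have ha0 : a ≠ 0 := by
      rintro rfl
      rw [zero_smul] at ha
      exact hgv ha
    exact ⟨Units.mk0 a ha0, ha.symm⟩

lemma mk_eq_mk_of_smul {v w : Fin 2 → K} (hv : v ≠ 0) (hw : w ≠ 0) {c : K} (h : v = c • w) :
    Projectivization.mk K v hv = Projectivization.mk K w hw := by
  rw [Projectivization.mk_eq_mk_iff]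
  have hc : c ≠ 0 := by
    rintro rfl
    rw [zero_smul] at h
    exact hv h
  exact ⟨Units.mk0 c hc, h.symm⟩

lemma exists_sum_prod [IsAlgClosed K] (t d : K) : ∃ a b : K, a + b = t ∧ a * b = d := by
  have hdeg : (Polynomial.X ^ 2 - Polynomial.C t * Polynomial.X + Polynomial.C d :
      Polynomial K).degree ≠ 0 := by
    have : (Polynomial.X ^ 2 - Polynomial.C t * Polynomial.X + Polynomial.C d :
        Polynomial K).degree = 2 := by
      compute_degree!
    rw [this]
    norm_num
  obtain ⟨a, ha⟩ := IsAlgClosed.exists_root _ hdeg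
  simp only [Polynomial.IsRoot.def, Polynomial.eval_add, Polynomial.eval_sub, Polynomial.eval_pow,
    Polynomial.eval_X, Polynomial.eval_mul, Polynomial.eval_C] at ha
  exact ⟨a, t - a, by ring, by linear_combination -ha⟩

lemma not_mem_center_iff {g : GL (Fin 2) K} :
    g ∉ Subgroup.center (GL (Fin 2) K) ↔
      ∀ a : K, (g : Matrix (Fin 2) (Fin 2) K) ≠ a • (1 : Matrix (Fin 2) (Fin 2) K) := by
  rw [Matrix.GeneralLinearGroup.mem_center_iff_val_mem_range_scalar]
  simp only [Set.mem_range, not_exists, Matrix.scalar_apply, ← Matrix.smul_one_eq_diagonal]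
  exact ⟨fun h a e => h a e.symm, fun h a e => h a e.symm⟩

/-- A non-scalar element of `GL₂(K)` (`K` algebraically closed) of finite order prime to the
characteristic has exactly two fixed points on the projective line. -/
theorem exists_two_fixed [IsAlgClosed K] (g : GL (Fin 2) K)
    (hg : g ∉ Subgroup.center (GL (Fin 2) K)) (m : ℕ) (hm : (m : K) ≠ 0) (hgm : g ^ m = 1) :
    ∃ x y : ℙ K (Fin 2 → K), x ≠ y ∧ ∀ p : ℙ K (Fin 2 → K), g • p = p ↔ p = x ∨ p = y := by
  set M : Matrix (Fin 2) (Fin 2) K := (g : Matrix (Fin 2) (Fin 2) K) with hM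
  have hns := not_mem_center_iff.mp hg
  have hMm : M ^ m = 1 := by
    have := congrArg (fun u : GL (Fin 2) K => (u : Matrix (Fin 2) (Fin 2) K)) hgm
    simpa using this
  have hdet : M.det ≠ 0 := by
    have := Matrix.GeneralLinearGroup.det_ne_zero g
    simpa [hM] using this
  obtain ⟨a, b, hab, hab'⟩ := exists_sum_prod M.trace M.det
  have ha0 : a ≠ 0 := by
    rintro rfl
    rw [zero_mul] at hab'
    exact hdet hab'.symm
  have hne : a ≠ b := by
    rintro rfl
    exact hns a (eq_smul_one_of_double_root M a hab.symm hab'.symm ha0 m hm hMm)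
  have hdeta : (M - a • (1 : Matrix (Fin 2) (Fin 2) K)).det = 0 := by
    rw [det_sub_smul_one, ← hab, ← hab']; ring
  have hdetb : (M - b • (1 : Matrix (Fin 2) (Fin 2) K)).det = 0 := by
    rw [det_sub_smul_one, ← hab, ← hab']; ring
  obtain ⟨va, hva, hva'⟩ := Matrix.exists_mulVec_eq_zero_iff.mpr hdeta
  obtain ⟨vb, hvb, hvb'⟩ := Matrix.exists_mulVec_eq_zero_iff.mpr hdetb
  have eva : M *ᵥ va = a • va := by
    rw [Matrix.sub_mulVec, Matrix.smul_mulVec, Matrix.one_mulVec, sub_eq_zero] at hva'
    exact hva'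
  have evb : M *ᵥ vb = b • vb := by
    rw [Matrix.sub_mulVec, Matrix.smul_mulVec, Matrix.one_mulVec, sub_eq_zero] at hvb'
    exact hvb'
  have hAa : M - a • (1 : Matrix (Fin 2) (Fin 2) K) ≠ 0 := fun h => hns a (sub_eq_zero.mp h)
  have hAb : M - b • (1 : Matrix (Fin 2) (Fin 2) K) ≠ 0 := fun h => hns b (sub_eq_zero.mp h)
  refine ⟨Projectivization.mk K va hva, Projectivization.mk K vb hvb, ?_, ?_⟩
  · intro h
    rw [Projectivization.mk_eq_mk_iff] at h
    obtain ⟨c, hc⟩ := h
    have h1 : M *ᵥ va = b • va := by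
      rw [← hc, Units.smul_def, Matrix.mulVec_smul, evb, smul_comm]
    rw [eva] at h1
    have h2 : (a - b) • va = 0 := by rw [sub_smul, h1, sub_self]
    rcases smul_eq_zero.mp h2 with h3 | h3
    · exact hne (sub_eq_zero.mp h3)
    · exact hva h3
  · intro p
    induction p using Projectivization.ind with
    | h v hv =>
      constructor
      · intro hp
        obtain ⟨e, he⟩ := (smul_mk_eq_iff g v hv).mp hp
        have hroot := eigenvalue_root M hv he
        have hfac : (e - a) * (e - b) = 0 := by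
          rw [← hab, ← hab'] at hroot
          linear_combination hroot
        have hker : ∀ c : K, e = c → (M - c • (1 : Matrix (Fin 2) (Fin 2) K)) *ᵥ v = 0 := by
          rintro c rfl
          rw [Matrix.sub_mulVec, Matrix.smul_mulVec, Matrix.one_mulVec, he, sub_self]
        rcases mul_eq_zero.mp hfac with h | h
        · left
          obtain ⟨c, hc⟩ := ker_proportional _ hAa hva hva' (hker a (sub_eq_zero.mp h))
          exact mk_eq_mk_of_smul hv hva hc
        · right
          obtain ⟨c, hc⟩ := ker_proportional _ hAb hvb hvb' (hker b (sub_eq_zero.mp h))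
          exact mk_eq_mk_of_smul hv hvb hc
      · rintro (h | h)
        · rw [h]
          exact (smul_mk_eq_iff g va hva).mpr ⟨a, eva⟩
        · rw [h]
          exact (smul_mk_eq_iff g vb hvb).mpr ⟨b, evb⟩

end Fermat.Agent.S48.H428
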