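import Mathlib
import Fermat.Agent.S48.H428.Count
import Fermat.Agent.S48.H428.Eigen

/-!
# S48 / P5 (helper428): finite subgroups of `GL₂(K)` of order prime to the characteristic

`card_bound_of_coprime`: for a finite subgroup `G ≤ GL₂(K)` (`K` algebraically closed,
`|G| ≠ 0` in `K`) and a finite subset `H ⊆ G` on which `(tr, det)` takes `M` values,
`2 |H| ≤ |G| + 4 M` or `|H| ≤ 120 M`.
-/

set_option autoImplicit false
set_option linter.style.haveILetI false

namespace Fermat.Agent.S48.H428

open scoped LinearAlgebra.Projectivization Matrix MatrixGroups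
open MulAction

variable {K : Type*} [Field K]

/-- The class function `(tr, det)`. -/
def trDet (g : GL (Fin 2) K) : K × K :=
  ((g : Matrix (Fin 2) (Fin 2) K).trace, (g : Matrix (Fin 2) (Fin 2) K).det)

lemma trDet_fst (g : GL (Fin 2) K) : (trDet g).1 = (g : Matrix (Fin 2) (Fin 2) K).trace := rfl

lemma trDet_snd (g : GL (Fin 2) K) : (trDet g).2 = (g : Matrix (Fin 2) (Fin 2) K).det := rfl

/-- A unipotent element of finite order prime to the characteristic is trivial. -/
lemma eq_one_of_fixed_of_det (k : GL (Fin 2) K) {v : Fin 2 → K} (hv : v ≠ 0)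
    (hkv : (k : Matrix (Fin 2) (Fin 2) K) *ᵥ v = v)
    (hdet : (k : Matrix (Fin 2) (Fin 2) K).det = 1)
    (N : ℕ) (hN : (N : K) ≠ 0) (hkN : k ^ N = 1) : k = 1 := by
  set M : Matrix (Fin 2) (Fin 2) K := (k : Matrix (Fin 2) (Fin 2) K) with hM
  have hMN : M ^ N = 1 := by
    have := congrArg (fun u : GL (Fin 2) K => (u : Matrix (Fin 2) (Fin 2) K)) hkN
    simpa using this
  have hroot := eigenvalue_root M hv (a := 1) (by rw [one_smul]; exact hkv)
  have htr : M.trace = 1 + 1 := by
    rw [hdet] at hroot
    linear_combination -hroot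
  have := eq_smul_one_of_double_root M 1 htr (by rw [hdet, mul_one]) one_ne_zero N hN hMN
  rw [one_smul] at this
  exact Units.ext this

/-- An element fixing a line is determined by its eigenvalue on the line and its determinant. -/
lemma eq_of_eigen_of_det (g g' : GL (Fin 2) K) {v : Fin 2 → K} (hv : v ≠ 0) (c : K)
    (hg : (g : Matrix (Fin 2) (Fin 2) K) *ᵥ v = c • v)
    (hg' : (g' : Matrix (Fin 2) (Fin 2) K) *ᵥ v = c • v)
    (hdet : (g : Matrix (Fin 2) (Fin 2) K).det = (g' : Matrix (Fin 2) (Fin 2) K).det)
    (N : ℕ) (hN : (N : K) ≠ 0) (hkN : (g⁻¹ * g') ^ N = 1) : g = g' := by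
  have hk : g⁻¹ * g' = 1 := by
    refine eq_one_of_fixed_of_det (g⁻¹ * g') hv ?_ ?_ N hN hkN
    · have h1 : g • ((g⁻¹ * g') • v) = g • v := by
        rw [← mul_smul, mul_inv_cancel_left]
        exact hg'.trans hg.symm
      exact MulAction.injective g h1
    · have hd : (g : Matrix (Fin 2) (Fin 2) K).det ≠ 0 := by
        have := Matrix.GeneralLinearGroup.det_ne_zero g
        simpa using this
      have h2 : (g : Matrix (Fin 2) (Fin 2) K).det *
          ((g⁻¹ * g' : GL (Fin 2) K) : Matrix (Fin 2) (Fin 2) K).det =
          (g : Matrix (Fin 2) (Fin 2) K).det := by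
        rw [← Matrix.det_mul, ← Units.val_mul, mul_inv_cancel_left, hdet]
      exact mul_left_cancel₀ hd (h2.trans (mul_one _).symm)
  have := congrArg (fun u => g * u) hk
  simpa using this.symm

variable [IsAlgClosed K]

/-- In a finite group of order prime to the characteristic, the elements fixing a given point of
the projective line and with given `(tr, det)` are at most two. -/
lemma card_fiber_stabilizer_le (G : Subgroup (GL (Fin 2) K)) [Finite G]
    (hN : (Nat.card G : K) ≠ 0) (x : ℙ K (Fin 2 → K)) (b : K × K)
    (S : Finset (GL (Fin 2) K))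
    (hS : ∀ g ∈ S, g ∈ G ∧ g • x = x ∧ trDet g = b) : S.card ≤ 2 := by
  classical
  induction x using Projectivization.ind with
  | h v hv =>
    obtain ⟨a, a', haa, haa'⟩ := exists_sum_prod b.1 b.2
    -- the eigenvalue on `v`
    have hex : ∀ g ∈ S, ∃ c : K, (g : Matrix (Fin 2) (Fin 2) K) *ᵥ v = c • v :=
      fun g hg => (smul_mk_eq_iff g v hv).mp (hS g hg).2.1
    let χ : GL (Fin 2) K → K := fun g =>
      if h : ∃ c : K, (g : Matrix (Fin 2) (Fin 2) K) *ᵥ v = c • v then h.choose else 0
    have hχ : ∀ g ∈ S, (g : Matrix (Fin 2) (Fin 2) K) *ᵥ v = χ g • v := by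
      intro g hg
      simp only [χ, dif_pos (hex g hg)]
      exact (hex g hg).choose_spec
    refine (Finset.card_le_card_of_injOn χ (t := {a, a'}) ?_ ?_).trans Finset.card_le_two
    · intro g hg
      have hroot := eigenvalue_root _ hv (hχ g hg)
      have hb := (hS g hg).2.2
      rw [← trDet_fst, ← trDet_snd, hb, ← haa, ← haa'] at hroot
      have hfac : (χ g - a) * (χ g - a') = 0 := by linear_combination hroot
      simp only [Finset.coe_insert, Finset.coe_singleton, Set.mem_insert_iff,
        Set.mem_singleton_iff]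
      rcases mul_eq_zero.mp hfac with h | h
      · exact Or.inl (sub_eq_zero.mp h)
      · exact Or.inr (sub_eq_zero.mp h)
    · intro g hg g' hg' hgg'
      have hg1 := hχ g hg
      have hg2 := hχ g' hg'
      rw [← hgg'] at hg2
      have hdet : (g : Matrix (Fin 2) (Fin 2) K).det = (g' : Matrix (Fin 2) (Fin 2) K).det := by
        rw [← trDet_snd, ← trDet_snd, (hS g hg).2.2, (hS g' hg').2.2]
      refine eq_of_eigen_of_det g g' hv (χ g) hg1 hg2 hdet (Nat.card G) hN ?_
      have hmem : g⁻¹ * g' ∈ G := G.mul_mem (G.inv_mem (hS g hg).1) (hS g' hg').1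
      have := pow_card_eq_one' (G := G) (x := ⟨g⁻¹ * g', hmem⟩)
      exact congrArg Subtype.val this

omit [IsAlgClosed K] in
/-- Two elements of the same coset of the scalars with the same determinant differ by a sign. -/
lemma eq_or_eq_neg_of_center (g g' : GL (Fin 2) K)
    (hz : g⁻¹ * g' ∈ Subgroup.center (GL (Fin 2) K))
    (hdet : (g : Matrix (Fin 2) (Fin 2) K).det = (g' : Matrix (Fin 2) (Fin 2) K).det) :
    g' = g ∨ g' = -g := by
  rw [Matrix.GeneralLinearGroup.mem_center_iff_val_mem_range_scalar] at hz
  obtain ⟨c, hc⟩ := hz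
  rw [Matrix.scalar_apply, ← Matrix.smul_one_eq_diagonal] at hc
  have hg' : (g' : Matrix (Fin 2) (Fin 2) K) = c • (g : Matrix (Fin 2) (Fin 2) K) := by
    have h1 : (g' : Matrix (Fin 2) (Fin 2) K) =
        (g : Matrix (Fin 2) (Fin 2) K) * ((g⁻¹ * g' : GL (Fin 2) K) : Matrix (Fin 2) (Fin 2) K) := by
      rw [← Units.val_mul, mul_inv_cancel_left]
    rw [h1, ← hc, Matrix.mul_smul, Matrix.mul_one]
  have hd : (g : Matrix (Fin 2) (Fin 2) K).det ≠ 0 := by
    have := Matrix.GeneralLinearGroup.det_ne_zero g
    simpa using this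
  have hc2 : (c - 1) * (c + 1) = 0 := by
    have h2 : (g' : Matrix (Fin 2) (Fin 2) K).det = c ^ 2 * (g : Matrix (Fin 2) (Fin 2) K).det := by
      rw [hg', Matrix.det_smul, Fintype.card_fin]
    rw [← hdet] at h2
    have h3 : (c ^ 2 - 1) * (g : Matrix (Fin 2) (Fin 2) K).det = 0 := by linear_combination -h2
    rcases mul_eq_zero.mp h3 with h | h
    · linear_combination h
    · exact absurd h hd
  rcases mul_eq_zero.mp hc2 with h | h
  · left
    have : c = 1 := by linear_combination h
    rw [this, one_smul] at hg'
    exact Units.ext hg'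
  · right
    have : c = -1 := by linear_combination h
    rw [this, neg_one_smul] at hg'
    exact Units.ext (by rw [hg', Units.val_neg])

omit [IsAlgClosed K] in
/-- If the scalars have index `≤ n` in `G`, every fiber of `(tr, det)` on `G` has at most `2 n`
elements. -/
lemma card_fiber_le_of_index (G : Subgroup (GL (Fin 2) K)) [Finite G] (b : K × K)
    (S : Finset (GL (Fin 2) K)) (hS : ∀ g ∈ S, g ∈ G ∧ trDet g = b) :
    S.card ≤ 2 * ((Subgroup.center (GL (Fin 2) K)).subgroupOf G).index := by
  classical
  set Z := (Subgroup.center (GL (Fin 2) K)).subgroupOf G with hZ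
  haveI : Finite (G ⧸ Z) := Quotient.finite _
  letI := Fintype.ofFinite (G ⧸ Z)
  let f : GL (Fin 2) K → G ⧸ Z := fun g =>
    if h : g ∈ G then QuotientGroup.mk ⟨g, h⟩ else QuotientGroup.mk 1
  have h1 : S.card ≤ 2 * (S.image f).card := by
    refine Finset.card_le_mul_card_image S 2 fun q _ => ?_
    rcases (S.filter fun a => f a = q).eq_empty_or_nonempty with he | ⟨g0, hg0⟩
    · rw [he]; simp
    · have hsub : (S.filter fun a => f a = q) ⊆ {g0, -g0} := by
        intro g hg
        rw [Finset.mem_filter] at hg hg0
        have hgG := (hS g hg.1).1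
        have hg0G := (hS g0 hg0.1).1
        have hq : f g0 = f g := hg0.2.trans hg.2.symm
        simp only [f, dif_pos hgG, dif_pos hg0G] at hq
        have hmem := QuotientGroup.eq.mp hq
        rw [hZ, Subgroup.mem_subgroupOf] at hmem
        have hdet : (g0 : Matrix (Fin 2) (Fin 2) K).det = (g : Matrix (Fin 2) (Fin 2) K).det := by
          rw [← trDet_snd, ← trDet_snd, (hS g hg.1).2, (hS g0 hg0.1).2]
        simp only [Finset.mem_insert, Finset.mem_singleton]
        exact eq_or_eq_neg_of_center g0 g hmem hdet
      exact (Finset.card_le_card hsub).trans Finset.card_le_two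
  have h2 : (S.image f).card ≤ Z.index := by
    rw [Subgroup.index, Nat.card_eq_fintype_card]
    exact Finset.card_le_univ _
  calc S.card ≤ 2 * (S.image f).card := h1
    _ ≤ 2 * Z.index := Nat.mul_le_mul_left 2 h2

/-- **Order prime to the characteristic.** -/
theorem card_bound_of_coprime (G : Subgroup (GL (Fin 2) K)) [Finite G]
    (hN : (Nat.card G : K) ≠ 0) (H : Finset (GL (Fin 2) K)) (hHG : ∀ h ∈ H, h ∈ G) :
    2 * H.card ≤ Nat.card G + 4 * (trDet '' (H : Set (GL (Fin 2) K))).ncard ∨
      H.card ≤ 120 * (trDet '' (H : Set (GL (Fin 2) K))).ncard := by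
  classical
  have hncard : (trDet '' (H : Set (GL (Fin 2) K))).ncard = (H.image trDet).card := by
    rw [← Finset.coe_image, Set.ncard_coe_finset]
  rw [hncard]
  set Z := (Subgroup.center (GL (Fin 2) K)).subgroupOf G with hZdef
  haveI : Z.Normal := Subgroup.normal_subgroupOf
  have hZ : ∀ z ∈ Z, ∀ x : ℙ K (Fin 2 → K), z • x = x := by
    intro z hz x
    rw [hZdef, Subgroup.mem_subgroupOf,
      Matrix.GeneralLinearGroup.mem_center_iff_val_mem_range_scalar] at hz
    obtain ⟨c, hc⟩ := hz
    rw [Matrix.scalar_apply, ← Matrix.smul_one_eq_diagonal] at hc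
    induction x using Projectivization.ind with
    | h v hv =>
      refine (smul_mk_eq_iff (z : GL (Fin 2) K) v hv).mpr ⟨c, ?_⟩
      rw [← hc, Matrix.smul_mulVec, Matrix.one_mulVec]
  have h2 : ∀ g : G, g ∉ Z → ∃ x y : ℙ K (Fin 2 → K), x ≠ y ∧
      ∀ p : ℙ K (Fin 2 → K), g • p = p ↔ p = x ∨ p = y := by
    intro g hg
    have hg' : (g : GL (Fin 2) K) ∉ Subgroup.center (GL (Fin 2) K) := fun h =>
      hg (Subgroup.mem_subgroupOf.mpr h)
    have hpow : (g : GL (Fin 2) K) ^ Nat.card G = 1 :=
      congrArg Subtype.val (pow_card_eq_one' (G := G) (x := g))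
    exact exists_two_fixed (g : GL (Fin 2) K) hg' (Nat.card G) hN hpow
  rcases exists_index_le_two_or_index_le Z hZ h2 with ⟨x, hx⟩ | hidx
  · left
    -- the stabilizer of `x`
    set St := stabilizer G x with hSt
    have hcard : Nat.card St * St.index = Nat.card G := Subgroup.card_mul_index St
    have hidx1 : 1 ≤ St.index := by
      rcases Nat.eq_zero_or_pos St.index with h0 | h0
      · rw [h0, mul_zero] at hcard
        have : 0 < Nat.card G := Nat.card_pos
        omega
      · exact h0
    have hSt2 : Nat.card G ≤ 2 * Nat.card St := by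
      have : Nat.card St * St.index ≤ Nat.card St * 2 := Nat.mul_le_mul_left _ hx
      omega
    set H1 := H.filter fun h => h • x = x with hH1
    set H2 := H.filter fun h => ¬ h • x = x with hH2
    have hsplit : H1.card + H2.card = H.card := Finset.card_filter_add_card_filter_not _
    have hH1le : H1.card ≤ 2 * (H.image trDet).card := by
      have : H1.card ≤ 2 * (H1.image trDet).card := by
        refine Finset.card_le_mul_card_image H1 2 fun b _ => ?_
        refine card_fiber_stabilizer_le G hN x b _ fun g hg => ?_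
        rw [Finset.mem_filter, hH1, Finset.mem_filter] at hg
        exact ⟨hHG g hg.1.1, hg.1.2, hg.2⟩
      exact this.trans (Nat.mul_le_mul_left 2
        (Finset.card_le_card (Finset.image_subset_image (Finset.filter_subset _ _))))
    have hH2le : H2.card + Nat.card St ≤ Nat.card G := by
      let F : {h // h ∈ H2} ⊕ St → G := fun u =>
        match u with
        | Sum.inl h => ⟨h.1, hHG h.1 (Finset.mem_of_mem_filter _ h.2)⟩
        | Sum.inr s => s.1
      have hF : Function.Injective F := by
        rintro (h | s) (h' | s') e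
        · have : (F (Sum.inl h)).1 = (F (Sum.inl h')).1 := congrArg Subtype.val e
          exact congrArg Sum.inl (Subtype.ext this)
        · exfalso
          have hmem : (F (Sum.inr s')) ∈ St := s'.2
          rw [← e] at hmem
          have hh := (Finset.mem_filter.mp h.2).2
          exact hh (by
            have := (mem_stabilizer_iff.mp hmem)
            exact this)
        · exfalso
          have hmem : (F (Sum.inr s)) ∈ St := s.2
          rw [e] at hmem
          have hh := (Finset.mem_filter.mp h'.2).2
          exact hh (by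
            have := (mem_stabilizer_iff.mp hmem)
            exact this)
        · have : (F (Sum.inr s)) = (F (Sum.inr s')) := e
          exact congrArg Sum.inr (Subtype.ext this)
      have := Nat.card_le_card_of_injective F hF
      rw [Nat.card_sum, Nat.card_eq_fintype_card, Fintype.card_coe] at this
      exact this
    omega
  · right
    have hfib : ∀ b ∈ H.image trDet, (H.filter fun a => trDet a = b).card ≤ 120 := by
      intro b _
      have := card_fiber_le_of_index G b (H.filter fun a => trDet a = b) fun g hg => by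
        rw [Finset.mem_filter] at hg
        exact ⟨hHG g hg.1, hg.2⟩
      calc (H.filter fun a => trDet a = b).card ≤ 2 * Z.index := this
        _ ≤ 2 * 60 := Nat.mul_le_mul_left 2 hidx
    exact Finset.card_le_mul_card_image H 120 hfib

end Fermat.Agent.S48.H428
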