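import Fermat.Agent.S48.H428.Coprime

/-!
# S48 / P5 (helper428): the coset lemma (case `ℓ ∣ |G|`, any field of characteristic `ℓ`)

Let `k` be a field of characteristic `ℓ`, `Γ` a finite group of order divisible by `ℓ` with an
injective homomorphism `ρ : Γ → GL₂(k)` whose image stabilises no line, and `H ⊆ Γ` a subset on
which `(tr, det)` takes its values in `P`.  Then `2 ℓ |H| ≤ (ℓ + 2 |P|) |Γ|` (`coset_bound`).

Proof.  An element `u` of order `ℓ` is `1 + N`, `N² = 0`, `N ≠ 0`.  Let `v = N w ≠ 0` and let `B`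
be the stabiliser of the line `k v`; it is a proper subgroup.  For `h ∉ B` one has
`tr(ρ(h) N) ≠ 0` (`N g N = tr(g N) N`), and `tr(ρ(h uʲ)) = tr ρ(h) + j tr(ρ(h) N)`, so the map
`h ↦ ((tr, det)(h), h ⟨u⟩)` is injective on `H ∖ B`.
-/

set_option autoImplicit false
set_option linter.style.haveILetI false

namespace Fermat.Agent.S48.H428

open scoped LinearAlgebra.Projectivization Matrix MatrixGroups
open MulAction

variable {k : Type*} [Field k]

/-- For a `2 × 2` matrix `N` of determinant `0` (rank `≤ 1`): `N g N = tr(g N) N`. -/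
lemma mul_mul_eq_trace_smul (N g : Matrix (Fin 2) (Fin 2) k) (hdet : N.det = 0) :
    N * g * N = (g * N).trace • N := by
  rw [Matrix.det_fin_two] at hdet
  ext i j
  fin_cases i <;> fin_cases j
  · simp only [Fin.zero_eta, Matrix.mul_apply, Fin.sum_univ_two, Matrix.smul_apply,
      Matrix.trace_fin_two, smul_eq_mul]
    linear_combination (-(g 1 1)) * hdet
  · simp only [Fin.zero_eta, Fin.mk_one, Matrix.mul_apply, Fin.sum_univ_two, Matrix.smul_apply,
      Matrix.trace_fin_two, smul_eq_mul]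
    linear_combination (g 0 1) * hdet
  · simp only [Fin.zero_eta, Fin.mk_one, Matrix.mul_apply, Fin.sum_univ_two, Matrix.smul_apply,
      Matrix.trace_fin_two, smul_eq_mul]
    linear_combination (g 1 0) * hdet
  · simp only [Fin.mk_one, Matrix.mul_apply, Fin.sum_univ_two, Matrix.smul_apply,
      Matrix.trace_fin_two, smul_eq_mul]
    linear_combination (-(g 0 0)) * hdet

/-- A nilpotent `2 × 2` matrix over a field has square zero. -/
lemma mul_self_eq_zero_of_pow_eq_zero {N : Matrix (Fin 2) (Fin 2) k} {n : ℕ} (h : N ^ n = 0) :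
    N * N = 0 := by
  have hN : IsNilpotent N := ⟨n, h⟩
  have h1 := Matrix.isNilpotent_charpoly_sub_pow_of_isNilpotent hN
  have h2 : N.charpoly = Polynomial.X ^ 2 := by
    have := h1.eq_zero
    simpa [sub_eq_zero] using this
  have h3 := Matrix.aeval_self_charpoly N
  rw [h2] at h3
  simpa [pow_two] using h3

/-- `(1 + N)ⁿ = 1 + n N` when `N² = 0`. -/
lemma one_add_pow_of_mul_self {N : Matrix (Fin 2) (Fin 2) k} (hN : N * N = 0) (n : ℕ) :
    (1 + N) ^ n = 1 + (n : k) • N := by
  induction n with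
  | zero => simp
  | succ n ih =>
    rw [pow_succ, ih, mul_add, mul_one, add_mul, one_mul, smul_mul_assoc, hN, smul_zero,
      add_zero, Nat.cast_succ, add_smul, one_smul, add_assoc]

/-- A nonzero matrix does not kill every vector. -/
lemma exists_mulVec_ne_zero {N : Matrix (Fin 2) (Fin 2) k} (hN : N ≠ 0) :
    ∃ w : Fin 2 → k, N *ᵥ w ≠ 0 := by
  by_contra h
  push Not at h
  apply hN
  ext i j
  have := congrFun (h (Pi.single j 1)) i
  simpa using this

/-- **The coset lemma.** -/
theorem coset_bound {Γ : Type*} [Group Γ] [Finite Γ] (ρ : Γ →* GL (Fin 2) k)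
    (hρ : Function.Injective ρ) (ℓ : ℕ) (hℓ : ℓ.Prime) [CharP k ℓ] (hdvd : ℓ ∣ Nat.card Γ)
    (hns : ∀ v : Fin 2 → k, v ≠ 0 →
      ∃ g : Γ, ∀ c : k, (ρ g : Matrix (Fin 2) (Fin 2) k) *ᵥ v ≠ c • v)
    (H : Finset Γ) (P : Finset (k × k)) (hP : ∀ h ∈ H, trDet (ρ h) ∈ P) :
    2 * ℓ * H.card ≤ (ℓ + 2 * P.card) * Nat.card Γ := by
  classical
  haveI : Fact ℓ.Prime := ⟨hℓ⟩
  haveI : Fintype Γ := Fintype.ofFinite Γ
  obtain ⟨u, hu⟩ := exists_prime_orderOf_dvd_card' ℓ hdvd
  have hu1 : u ≠ 1 := by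
    rintro rfl
    rw [orderOf_one] at hu
    exact hℓ.one_lt.ne hu
  have hul : u ^ ℓ = 1 := by
    have := pow_orderOf_eq_one u
    rwa [hu] at this
  -- the nilpotent part
  set U : Matrix (Fin 2) (Fin 2) k := (ρ u : Matrix (Fin 2) (Fin 2) k) with hU
  set N : Matrix (Fin 2) (Fin 2) k := U - 1 with hNdef
  have hUN : U = 1 + N := by rw [hNdef]; abel
  have hN0 : N ≠ 0 := by
    intro h
    apply hu1
    apply hρ
    rw [map_one]
    exact Units.ext (by rw [Units.val_one]; exact sub_eq_zero.mp h)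
  have hUl : U ^ ℓ = 1 := by
    rw [hU, ← Units.val_pow_eq_pow_val, ← map_pow, hul, map_one, Units.val_one]
  have hNl : N ^ ℓ = 0 := by
    rw [hNdef, sub_pow_char_of_commute ℓ (Commute.one_right U), hUl, one_pow, sub_self]
  have hNN : N * N = 0 := mul_self_eq_zero_of_pow_eq_zero hNl
  have hNdet : N.det = 0 := by
    have h1 : (N * N).det = 0 := by rw [hNN]; simp
    rw [Matrix.det_mul] at h1
    exact mul_self_eq_zero.mp h1
  obtain ⟨w, hw⟩ := exists_mulVec_ne_zero hN0
  set v : Fin 2 → k := N *ᵥ w with hv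
  have hNv : N *ᵥ v = 0 := by rw [hv, Matrix.mulVec_mulVec, hNN, Matrix.zero_mulVec]
  -- vanishing of `tr (g N)` forces `g` to stabilise the line of `v`
  have key : ∀ g : Matrix (Fin 2) (Fin 2) k, (g * N).trace = 0 → ∃ c : k, g *ᵥ v = c • v := by
    intro g hg
    have h1 : N *ᵥ (g *ᵥ v) = 0 := by
      rw [hv, Matrix.mulVec_mulVec, Matrix.mulVec_mulVec,
        mul_mul_eq_trace_smul N g hNdet, hg, zero_smul, Matrix.zero_mulVec]
    exact ker_proportional N hN0 hw hNv h1
  -- powers of `u`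
  have hUpow : ∀ n : ℕ, ((ρ (u ^ n) : GL (Fin 2) k) : Matrix (Fin 2) (Fin 2) k) =
      1 + (n : k) • N := by
    intro n
    rw [map_pow, Units.val_pow_eq_pow_val, ← hU, hUN, one_add_pow_of_mul_self hNN]
  -- the stabiliser of the line of `v`
  let x : ℙ k (Fin 2 → k) := Projectivization.mk k v hw
  let B : Subgroup Γ := (MulAction.stabilizer (GL (Fin 2) k) x).comap ρ
  have hBmem : ∀ g : Γ, g ∈ B ↔ ∃ c : k, (ρ g : Matrix (Fin 2) (Fin 2) k) *ᵥ v = c • v := by
    intro g
    rw [Subgroup.mem_comap, MulAction.mem_stabilizer_iff]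
    exact smul_mk_eq_iff (ρ g) v hw
  have hBtop : B ≠ ⊤ := by
    intro h
    obtain ⟨g, hg⟩ := hns v hw
    have : g ∈ B := by rw [h]; exact Subgroup.mem_top g
    obtain ⟨c, hc⟩ := (hBmem g).mp this
    exact hg c hc
  have hBcard : 2 * Nat.card B ≤ Nat.card Γ := by
    have h1 : B.index * Nat.card B = Nat.card Γ := Subgroup.index_mul_card B
    have h2 : B.index ≠ 1 := fun h => hBtop (Subgroup.index_eq_one.mp h)
    have h3 : B.index ≠ 0 := Subgroup.index_ne_zero_of_finite
    have h4 : 2 ≤ B.index := by omega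
    calc 2 * Nat.card B ≤ B.index * Nat.card B := Nat.mul_le_mul_right _ h4
      _ = Nat.card Γ := h1
  -- the part of `H` inside `B`
  have hHB : (H.filter (fun h => h ∈ B)).card ≤ Nat.card B := by
    have h1 : ((H.filter (fun h => h ∈ B) : Finset Γ) : Set Γ) ⊆ (B : Set Γ) := by
      intro h hh
      exact (Finset.mem_filter.mp (Finset.mem_coe.mp hh)).2
    have h2 := Set.ncard_le_ncard h1 (Set.toFinite _)
    rw [Set.ncard_coe_finset] at h2
    exact h2.trans (le_of_eq (Nat.card_coe_set_eq (B : Set Γ)).symm)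
  -- the part of `H` outside `B`
  let Z : Subgroup Γ := Subgroup.zpowers u
  have hZcard : Nat.card (Γ ⧸ Z) * ℓ = Nat.card Γ := by
    have h1 := Subgroup.card_eq_card_quotient_mul_card_subgroup Z
    rw [Nat.card_zpowers, hu] at h1
    exact h1.symm
  haveI : Fintype (Γ ⧸ Z) := Fintype.ofFinite _
  have hS : (H.filter (fun h => h ∉ B)).card ≤ P.card * Nat.card (Γ ⧸ Z) := by
    have hmaps : ∀ h ∈ H.filter (fun h => h ∉ B),
        ((trDet (ρ h), (QuotientGroup.mk h : Γ ⧸ Z)) : (k × k) × (Γ ⧸ Z)) ∈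
          P ×ˢ (Finset.univ : Finset (Γ ⧸ Z)) := by
      intro h hh
      rw [Finset.mem_product]
      exact ⟨hP h (Finset.mem_filter.mp hh).1, Finset.mem_univ _⟩
    have hinj : Set.InjOn
        (fun h : Γ => ((trDet (ρ h), (QuotientGroup.mk h : Γ ⧸ Z)) : (k × k) × (Γ ⧸ Z)))
        (H.filter (fun h => h ∉ B) : Finset Γ) := by
      intro h hh h' _ heq
      rw [Finset.mem_coe, Finset.mem_filter] at hh
      simp only [Prod.mk.injEq] at heq
      obtain ⟨htd, hq⟩ := heq
      have hmem : h⁻¹ * h' ∈ Z := QuotientGroup.eq.mp hq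
      obtain ⟨n, hn⟩ : h⁻¹ * h' ∈ Submonoid.powers u := mem_powers_iff_mem_zpowers.mpr hmem
      have hn' : u ^ n = h⁻¹ * h' := hn
      have hh' : h' = h * u ^ n := by rw [hn', mul_inv_cancel_left]
      have htr : ((ρ h' : GL (Fin 2) k) : Matrix (Fin 2) (Fin 2) k).trace =
          ((ρ h : GL (Fin 2) k) : Matrix (Fin 2) (Fin 2) k).trace +
            (n : k) * ((ρ h : Matrix (Fin 2) (Fin 2) k) * N).trace := by
        rw [hh', map_mul, Units.val_mul, hUpow n, mul_add, mul_one, Matrix.trace_add,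
          Matrix.mul_smul, Matrix.trace_smul, smul_eq_mul]
      have htr0 : ((ρ h : Matrix (Fin 2) (Fin 2) k) * N).trace ≠ 0 := by
        intro h0
        exact hh.2 ((hBmem h).mpr (key _ h0))
      have h1 : (n : k) * ((ρ h : Matrix (Fin 2) (Fin 2) k) * N).trace = 0 := by
        have := congrArg Prod.fst htd
        simp only [trDet] at this
        rw [htr] at this
        linear_combination -this
      have h2 : (n : k) = 0 := (mul_eq_zero.mp h1).resolve_right htr0
      have h3 : ℓ ∣ n := (CharP.cast_eq_zero_iff k ℓ n).mp h2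
      have h4 : u ^ n = 1 := by
        rw [← hu] at h3
        exact orderOf_dvd_iff_pow_eq_one.mp h3
      rw [hh', h4, mul_one]
    have := Finset.card_le_card_of_injOn _ hmaps hinj
    rw [Finset.card_product, Finset.card_univ, ← Nat.card_eq_fintype_card] at this
    exact this
  have hsplit : H.card = (H.filter (fun h => h ∈ B)).card +
      (H.filter (fun h => h ∉ B)).card :=
    (Finset.card_filter_add_card_filter_not (fun h => h ∈ B)).symm
  calc 2 * ℓ * H.card
      = ℓ * (2 * (H.filter (fun h => h ∈ B)).card) +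
          2 * ((H.filter (fun h => h ∉ B)).card * ℓ) := by rw [hsplit]; ring
    _ ≤ ℓ * (2 * Nat.card B) + 2 * (P.card * Nat.card (Γ ⧸ Z) * ℓ) := by
        gcongr
    _ ≤ ℓ * Nat.card Γ + 2 * (P.card * Nat.card Γ) := by
        rw [mul_assoc P.card, hZcard]
        gcongr
    _ = (ℓ + 2 * P.card) * Nat.card Γ := by ring

end Fermat.Agent.S48.H428
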