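import Fermat.Agent.S48.INT.Spec

/-!
# S48 / INT piece DIVF (helper428): dividing a weight-two cusp form by a zero-free weight-one form

`divFun : INT.DivFunStatement` (exact shape of `Fermat/Agent/S48/INT/Spec.lean`): if
`u, v ∈ S₂(Γ₁(M))`, `8 ∣ M`, satisfy `u G₂ = v G₁` with `G₁, G₂` zero-free modular forms of weight
one on `Γ₁(8)` such that at every cusp one of them is bounded below, then `u / G₁` is a cusp
form of weight one on `Γ₁(M)`.
-/

set_option autoImplicit false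

open CongruenceSubgroup UpperHalfPlane
open scoped MatrixGroups ModularForm Manifold

namespace Fermat.Agent.S48.H428

/-- Slash of a quotient: if `u = F * G` then `u ∣[2] γ = (F ∣[1] γ) * (G ∣[1] γ)`. -/
lemma slash_two_of_eq_mul {u F G : ℍ → ℂ} (h : u = F * G) (γ : SL(2, ℤ)) :
    u ∣[(2 : ℤ)] γ = (F ∣[(1 : ℤ)] γ) * (G ∣[(1 : ℤ)] γ) := by
  rw [h]
  exact ModularForm.mul_slash_SL2 1 1 γ F G

/-- `Γ₁(M) ≤ Γ₁(8)` for `8 ∣ M`. -/
lemma gamma1_le_of_dvd {N M : ℕ} (h : N ∣ M) : Gamma1 M ≤ Gamma1 N := by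
  intro γ hγ
  rw [Gamma1_mem] at hγ ⊢
  obtain ⟨h1, h2, h3⟩ := hγ
  have key : ∀ a : ℤ, ∀ b : ℤ, ((a : ZMod M) = (b : ZMod M)) → ((a : ZMod N) = (b : ZMod N)) := by
    intro a b hab
    rw [ZMod.intCast_eq_intCast_iff] at hab ⊢
    exact hab.of_dvd (by exact_mod_cast h)
  refine ⟨?_, ?_, ?_⟩
  · have := key (γ.1 0 0) 1 (by simpa using h1)
    simpa using this
  · have := key (γ.1 1 1) 1 (by simpa using h2)
    simpa using this
  · have := key (γ.1 1 0) 0 (by simpa using h3)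
    simpa using this

/-- A function tending to zero divided by a function bounded below tends to zero. -/
lemma isZeroAtImInfty_of_mul {A B C : ℍ → ℂ} (hA : IsZeroAtImInfty A) (h : A = C * B)
    {c Y : ℝ} (hc : 0 < c) (hB : ∀ z : ℍ, Y ≤ z.im → c ≤ ‖B z‖) : IsZeroAtImInfty C := by
  rw [isZeroAtImInfty_iff] at hA ⊢
  intro ε hε
  obtain ⟨A₀, hA₀⟩ := hA (ε * c) (mul_pos hε hc)
  refine ⟨max A₀ Y, fun z hz => ?_⟩
  have h1 := hA₀ z ((le_max_left _ _).trans hz)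
  have h2 := hB z ((le_max_right _ _).trans hz)
  have h3 : ‖A z‖ = ‖C z‖ * ‖B z‖ := by rw [h, Pi.mul_apply, norm_mul]
  rw [h3] at h1
  by_contra hlt
  push Not at hlt
  have h4 : ε * c < ‖C z‖ * ‖B z‖ :=
    calc ε * c < ‖C z‖ * c := mul_lt_mul_of_pos_right hlt hc
      _ ≤ ‖C z‖ * ‖B z‖ := mul_le_mul_of_nonneg_left h2 (norm_nonneg _)
  linarith

/-- **DIVF.** -/
theorem divFun : INT.DivFunStatement := by
  intro G₁ G₂ hG₁ hG₂ hcusp M hM h8 u v huv
  haveI : NeZero M := ⟨hM⟩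
  -- the quotient
  let F : ℍ → ℂ := fun z => u z / G₁ z
  have hu : (u : ℍ → ℂ) = F * (G₁ : ℍ → ℂ) := by
    funext z
    simp only [F, Pi.mul_apply]
    rw [div_mul_cancel₀ _ (hG₁ z)]
  have hv : (v : ℍ → ℂ) = F * (G₂ : ℍ → ℂ) := by
    funext z
    simp only [F, Pi.mul_apply]
    rw [div_mul_eq_mul_div, eq_div_iff (hG₁ z)]
    exact (huv z).symm
  -- slash invariance
  have hslash : ∀ γ ∈ (Gamma1 M : Subgroup (GL (Fin 2) ℝ)), F ∣[(1 : ℤ)] γ = F := by
    intro γ hγ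
    obtain ⟨γ', hγ', rfl⟩ := Subgroup.mem_map.mp hγ
    have h1 : (u : ℍ → ℂ) ∣[(2 : ℤ)] γ' = u :=
      SlashInvariantForm.slash_action_eqn u _ (Subgroup.mem_map_of_mem _ hγ')
    have h2 : (G₁ : ℍ → ℂ) ∣[(1 : ℤ)] γ' = G₁ :=
      SlashInvariantForm.slash_action_eqn G₁ _
        (Subgroup.mem_map_of_mem _ (gamma1_le_of_dvd h8 hγ'))
    have h3 := slash_two_of_eq_mul hu γ'
    rw [h1, h2] at h3
    change F ∣[(1 : ℤ)] γ' = F
    funext z
    have h4 := congrFun h3 z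
    rw [hu, Pi.mul_apply, Pi.mul_apply] at h4
    exact (mul_right_cancel₀ (hG₁ z) h4).symm
  -- holomorphy
  have hholo : MDiff F := by
    have h1 := UpperHalfPlane.mdifferentiable_iff.mp (CuspFormClass.holo u)
    have h2 := UpperHalfPlane.mdifferentiable_iff.mp (ModularFormClass.holo G₁)
    rw [UpperHalfPlane.mdifferentiable_iff]
    exact h1.div h2 (fun z _ => hG₁ _)
  -- vanishing at the cusps
  have hzero : ∀ {c : OnePoint ℝ}, IsCusp c (Gamma1 M : Subgroup (GL (Fin 2) ℝ)) →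
      c.IsZeroAt F 1 := by
    intro c hc
    have hc' : IsCusp c (Matrix.SpecialLinearGroup.mapGL ℝ).range :=
      (Subgroup.IsArithmetic.isCusp_iff_isCusp_SL2Z _).mp hc
    rw [OnePoint.isZeroAt_iff_forall_SL2Z hc']
    intro γ hγ
    have hu0 : IsZeroAtImInfty ((u : ℍ → ℂ) ∣[(2 : ℤ)] γ) :=
      (OnePoint.isZeroAt_iff_forall_SL2Z hc').mp (CuspFormClass.zero_at_cusps u hc) γ hγ
    have hv0 : IsZeroAtImInfty ((v : ℍ → ℂ) ∣[(2 : ℤ)] γ) :=
      (OnePoint.isZeroAt_iff_forall_SL2Z hc').mp (CuspFormClass.zero_at_cusps v hc) γ hγ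
    obtain ⟨c₀, hc₀, Y, hY⟩ := hcusp γ
    rcases hY with hY | hY
    · exact isZeroAtImInfty_of_mul hu0 (slash_two_of_eq_mul hu γ) hc₀ hY
    · exact isZeroAtImInfty_of_mul hv0 (slash_two_of_eq_mul hv γ) hc₀ hY
  refine ⟨{ toFun := F, slash_action_eq' := hslash, holo' := hholo, zero_at_cusps' := hzero }, ?_⟩
  intro z
  exact (congrFun hu z).symm

end Fermat.Agent.S48.H428
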