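import Fermat.Agent.S48.Top.Spec
import Fermat.Agent.S48.H428.Coset

/-!
# S48 (Deligne–Serre) / P5 = FI (helper428): the finite image lemma, general-field form

`finiteImage : Top.FiniteImageStatement` (Deligne–Serre 1974, Prop. 7.2), unconditional, in the
exact shape of `Fermat/Agent/S48/Top/Spec.lean`:
for `η < 1/2` and `M` there is `A` such that for every prime `ℓ > A`, every field `k` of
characteristic `ℓ` and every finite semisimple subgroup `G ≤ GL₂(k)` with `C(η, M)` one has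
`|G| ≤ A`.  Here `A = 240 M + ⌈4 M / (1 - 2 η)⌉`.

* `ℓ ∣ |G|` is impossible for `ℓ > 2 M / (1 - 2 η)`: `coset_bound` (the coset lemma), using
  that a semisimple `G` of order divisible by `ℓ` stabilises no line (`noStableLine_of_split`).
* `ℓ ∤ |G|`: base change to the algebraic closure of `k` and `card_bound_of_coprime`
  (Burnside count on the fixed points on the projective line; no trichotomy needed):
  `|G| ≤ 4 M / (1 - 2 η)` or `|G| ≤ 240 M`.
-/

set_option autoImplicit false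
set_option linter.style.haveILetI false

namespace Fermat.Agent.S48.H428

open Matrix

section Transfer

variable {F K : Type*} [Field F] [Field K] (f : F →+* K)

/-- `GL₂(F) → GL₂(K)` is injective. -/
lemma glMap_injective :
    Function.Injective (Matrix.GeneralLinearGroup.map (n := Fin 2) f) := by
  intro g h hgh
  apply Units.ext
  ext i j
  have := congrArg (fun x : GL (Fin 2) K => x i j) hgh
  simp only [Matrix.GeneralLinearGroup.map_apply] at this
  exact f.injective this

/-- `(trace, det)` is compatible with base change. -/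
lemma trDet_glMap (g : GL (Fin 2) F) :
    trDet (Matrix.GeneralLinearGroup.map (n := Fin 2) f g) = Prod.map f f (Top.trDet g) := by
  ext
  · simp [trDet, Top.trDet, Matrix.trace_fin_two]
  · simp [trDet, Top.trDet, Matrix.det_fin_two]

end Transfer

/-- The coprime case over any field of characteristic `ℓ`. -/
theorem card_bound_field (ℓ : ℕ) (k : Type*) [Field k] [CharP k ℓ]
    (G : Subgroup (GL (Fin 2) k)) [Finite G]
    (hl : ¬ ℓ ∣ Nat.card G) (H : Set (GL (Fin 2) k))
    (hHG : H ⊆ (G : Set (GL (Fin 2) k)))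
    (P : Finset (k × k)) (hP : ∀ h ∈ H, Top.trDet h ∈ P) :
    2 * Nat.card H ≤ Nat.card G + 4 * P.card ∨ Nat.card H ≤ 120 * P.card := by
  classical
  let K := AlgebraicClosure k
  let f : k →+* K := algebraMap k K
  let φ : GL (Fin 2) k →* GL (Fin 2) K := Matrix.GeneralLinearGroup.map f
  have hφ : Function.Injective φ := glMap_injective f
  haveI : CharP K ℓ := charP_of_injective_algebraMap f.injective ℓ
  have hcardG : Nat.card (G.map φ) = Nat.card G := Subgroup.card_map_of_injective hφ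
  have hGpos : 0 < Nat.card G := Nat.card_pos
  haveI : Finite (G.map φ) := Nat.finite_of_card_ne_zero (by omega)
  have hN : (Nat.card (G.map φ) : K) ≠ 0 := by
    rw [hcardG, Ne, CharP.cast_eq_zero_iff K ℓ]
    exact hl
  have hHfin : H.Finite := (Set.toFinite (G : Set (GL (Fin 2) k))).subset hHG
  let H' : Finset (GL (Fin 2) K) := hHfin.toFinset.image φ
  have hH'G : ∀ h ∈ H', h ∈ G.map φ := by
    intro h hh
    obtain ⟨x, hx, rfl⟩ := Finset.mem_image.mp hh
    exact Subgroup.mem_map_of_mem φ (hHG ((Set.Finite.mem_toFinset _).mp hx))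
  have hH'card : H'.card = Nat.card H := by
    rw [Finset.card_image_of_injective _ hφ, ← Set.ncard_eq_toFinset_card H hHfin,
      Nat.card_coe_set_eq]
  have himg : (trDet '' (H' : Set (GL (Fin 2) K))).ncard ≤ P.card := by
    have hsub : trDet '' (H' : Set (GL (Fin 2) K)) ⊆
        ((P.image (Prod.map f f) : Finset (K × K)) : Set (K × K)) := by
      rintro _ ⟨h, hh, rfl⟩
      obtain ⟨x, hx, rfl⟩ := Finset.mem_image.mp (Finset.mem_coe.mp hh)
      rw [Finset.mem_coe, Finset.mem_image]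
      exact ⟨Top.trDet x, hP x ((Set.Finite.mem_toFinset _).mp hx), (trDet_glMap f x).symm⟩
    calc (trDet '' (H' : Set (GL (Fin 2) K))).ncard
        ≤ ((P.image (Prod.map f f) : Finset (K × K)) : Set (K × K)).ncard :=
          Set.ncard_le_ncard hsub (Finset.finite_toSet _)
      _ = (P.image (Prod.map f f)).card := Set.ncard_coe_finset _
      _ ≤ P.card := Finset.card_image_le
  rcases card_bound_of_coprime (G.map φ) hN H' hH'G with h | h
  · left
    rw [hH'card, hcardG] at h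
    omega
  · right
    rw [hH'card] at h
    omega

/-- A semisimple subgroup of `GL₂(k)`, `k` of characteristic `ℓ`, of order divisible by `ℓ`
stabilises no line. -/
theorem noStableLine_of_split (ℓ : ℕ) (hℓ : ℓ.Prime) (k : Type*) [Field k] [CharP k ℓ]
    (G : Subgroup (GL (Fin 2) k)) [Finite G]
    (hs : Top.StableLinesSplit G) (hl : ℓ ∣ Nat.card G) (v : Fin 2 → k) (hv : v ≠ 0) :
    ∃ g : G, ∀ c : k, ((g : GL (Fin 2) k) : Matrix (Fin 2) (Fin 2) k) *ᵥ v ≠ c • v := by
  haveI : Fact ℓ.Prime := ⟨hℓ⟩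
  by_contra hns
  push Not at hns
  have hstab : ∀ g ∈ G, ∃ c : k, (g : Matrix (Fin 2) (Fin 2) k) *ᵥ v = c • v :=
    fun g hg => hns ⟨g, hg⟩
  obtain ⟨w, hw, hwstab⟩ := hs v hv hstab
  obtain ⟨u, hu⟩ := exists_prime_orderOf_dvd_card' ℓ hl
  have hUord : orderOf (u : GL (Fin 2) k) = ℓ := by
    rw [Subgroup.orderOf_coe]; exact hu
  obtain ⟨U, hUG⟩ := u
  simp only at hUord
  have hU1 : U ≠ 1 := by
    intro h
    rw [h, orderOf_one] at hUord
    exact hℓ.one_lt.ne hUord
  have hUl : U ^ ℓ = 1 := by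
    have := pow_orderOf_eq_one U
    rwa [hUord] at this
  have hUl' : (U : Matrix (Fin 2) (Fin 2) k) ^ ℓ = 1 := by
    rw [← Units.val_pow_eq_pow_val, hUl, Units.val_one]
  have key : ∀ x : Fin 2 → k, x ≠ 0 →
      (∃ c : k, (U : Matrix (Fin 2) (Fin 2) k) *ᵥ x = c • x) →
      ((U : Matrix (Fin 2) (Fin 2) k) - 1) *ᵥ x = 0 := by
    rintro x hx ⟨c, hc⟩
    have hpow : ∀ n : ℕ, ((U : Matrix (Fin 2) (Fin 2) k) ^ n) *ᵥ x = c ^ n • x := by
      intro n
      induction n with
      | zero => simp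
      | succ n ih =>
        rw [pow_succ, ← Matrix.mulVec_mulVec, hc, Matrix.mulVec_smul, ih, smul_smul, pow_succ,
          mul_comm]
    have h1 := hpow ℓ
    rw [hUl', Matrix.one_mulVec] at h1
    have h2 : c ^ ℓ = 1 := by
      by_contra hne
      have h3 : (c ^ ℓ - 1) • x = 0 := by rw [sub_smul, one_smul, ← h1, sub_self]
      rcases smul_eq_zero.mp h3 with h4 | h4
      · exact hne (sub_eq_zero.mp h4)
      · exact hx h4
    have h5 : c = 1 := by
      have h6 : (c - 1) ^ ℓ = 0 := by rw [sub_pow_char, h2, one_pow, sub_self]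
      exact sub_eq_zero.mp (pow_eq_zero_iff hℓ.ne_zero |>.mp h6)
    rw [Matrix.sub_mulVec, Matrix.one_mulVec, hc, h5, one_smul, sub_self]
  have hw0 : w ≠ 0 := by
    intro h
    exact hw 0 (by rw [h, zero_smul])
  have hA : (U : Matrix (Fin 2) (Fin 2) k) - 1 ≠ 0 := by
    intro h
    exact hU1 (Units.ext (by rw [Units.val_one]; exact sub_eq_zero.mp h))
  obtain ⟨c, hc⟩ := ker_proportional _ hA hv (key v hv (hstab U hUG)) (key w hw0 (hwstab U hUG))
  exact hw c hc

/-- The case `ℓ ∣ |G|`: the coset lemma for a subgroup and a subset. -/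
theorem coset_bound_subgroup (ℓ : ℕ) (hℓ : ℓ.Prime) (k : Type*) [Field k] [CharP k ℓ]
    (G : Subgroup (GL (Fin 2) k)) [Finite G]
    (hs : Top.StableLinesSplit G) (hl : ℓ ∣ Nat.card G) (H : Set (GL (Fin 2) k))
    (hHG : H ⊆ (G : Set (GL (Fin 2) k)))
    (P : Finset (k × k)) (hP : ∀ h ∈ H, Top.trDet h ∈ P) :
    2 * ℓ * Nat.card H ≤ (ℓ + 2 * P.card) * Nat.card G := by
  classical
  have hHfin : H.Finite := (Set.toFinite (G : Set (GL (Fin 2) k))).subset hHG
  let H' : Finset G := hHfin.toFinset.subtype (fun g => g ∈ G)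
  have hH'card : H'.card = Nat.card H := by
    have hfil : hHfin.toFinset.filter (fun g => g ∈ G) = hHfin.toFinset :=
      Finset.filter_true_of_mem (fun h hh => hHG ((Set.Finite.mem_toFinset _).mp hh))
    rw [Finset.card_subtype, hfil, ← Set.ncard_eq_toFinset_card H hHfin,
      Nat.card_coe_set_eq]
  have h := coset_bound (G.subtype) (Subgroup.subtype_injective G) ℓ hℓ hl
    (noStableLine_of_split ℓ hℓ k G hs hl) H' P (fun h hh => by
      rw [Finset.mem_subtype] at hh
      exact hP _ ((Set.Finite.mem_toFinset _).mp hh))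
  rwa [hH'card] at h

/-- **P5 = FI: the finite image lemma** (Deligne–Serre, Prop. 7.2), general-field form. -/
theorem finiteImage : Top.FiniteImageStatement := by
  intro η M hη
  refine ⟨240 * M + ⌈4 * (M : ℝ) / (1 - 2 * η)⌉₊, ?_⟩
  intro ℓ hℓ hAℓ k _ _ G hGfin hs hC
  obtain ⟨H, hHG, hcard, P, hPM, hP⟩ := hC
  haveI : Finite G := hGfin
  have hGpos : 0 < Nat.card G := Nat.card_pos
  have hGpos' : (0 : ℝ) < (Nat.card G : ℝ) := by exact_mod_cast hGpos
  have hPM' : (P.card : ℝ) ≤ (M : ℝ) := by exact_mod_cast hPM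
  have hpos : (0 : ℝ) < 1 - 2 * η := by linarith
  have hM0 : (0 : ℝ) ≤ (M : ℝ) := Nat.cast_nonneg M
  by_cases hl : ℓ ∣ Nat.card G
  · exfalso
    have h1 := coset_bound_subgroup ℓ hℓ k G hs hl H hHG P hP
    have h1' : 2 * (ℓ : ℝ) * (Nat.card H : ℝ) ≤
        ((ℓ : ℝ) + 2 * (P.card : ℝ)) * (Nat.card G : ℝ) := by exact_mod_cast h1
    have hℓpos : (0 : ℝ) < (ℓ : ℝ) := by exact_mod_cast hℓ.pos
    -- `ℓ (1 - 2 η) ≤ 2 M`
    have h2 : 2 * (ℓ : ℝ) * ((1 - η) * (Nat.card G : ℝ)) ≤
        ((ℓ : ℝ) + 2 * (M : ℝ)) * (Nat.card G : ℝ) := by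
      calc 2 * (ℓ : ℝ) * ((1 - η) * (Nat.card G : ℝ))
          ≤ 2 * (ℓ : ℝ) * (Nat.card H : ℝ) :=
            mul_le_mul_of_nonneg_left hcard (by positivity)
        _ ≤ ((ℓ : ℝ) + 2 * (P.card : ℝ)) * (Nat.card G : ℝ) := h1'
        _ ≤ ((ℓ : ℝ) + 2 * (M : ℝ)) * (Nat.card G : ℝ) :=
            mul_le_mul_of_nonneg_right (by linarith) hGpos'.le
    have h3 : 2 * (ℓ : ℝ) * (1 - η) ≤ (ℓ : ℝ) + 2 * (M : ℝ) := by
      have h4 : (2 * (ℓ : ℝ) * (1 - η)) * (Nat.card G : ℝ) ≤
          ((ℓ : ℝ) + 2 * (M : ℝ)) * (Nat.card G : ℝ) := by linarith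
      exact le_of_mul_le_mul_right h4 hGpos'
    have h5 : (ℓ : ℝ) * (1 - 2 * η) ≤ 2 * (M : ℝ) := by linarith
    have h6 : (ℓ : ℝ) ≤ 4 * (M : ℝ) / (1 - 2 * η) := by
      rw [le_div_iff₀ hpos]
      linarith
    have h7 : ℓ ≤ ⌈4 * (M : ℝ) / (1 - 2 * η)⌉₊ :=
      Nat.cast_le.mp (le_trans h6 (Nat.le_ceil _))
    omega
  · have hhalf : (Nat.card G : ℝ) / 2 < (1 - η) * (Nat.card G : ℝ) := by nlinarith
    rcases card_bound_field ℓ k G hl H hHG P hP with h | h
    · have h' : 2 * (Nat.card H : ℝ) ≤ (Nat.card G : ℝ) + 4 * (P.card : ℝ) := by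
        exact_mod_cast h
      have h8 : (Nat.card G : ℝ) ≤ 4 * (M : ℝ) / (1 - 2 * η) := by
        rw [le_div_iff₀ hpos]
        nlinarith
      have h9 : Nat.card G ≤ ⌈4 * (M : ℝ) / (1 - 2 * η)⌉₊ :=
        Nat.cast_le.mp (le_trans h8 (Nat.le_ceil _))
      omega
    · have h' : (Nat.card H : ℝ) ≤ 120 * (P.card : ℝ) := by exact_mod_cast h
      have h8 : (Nat.card G : ℝ) < 240 * (M : ℝ) := by linarith
      have h9 : Nat.card G < 240 * M := by exact_mod_cast h8
      omega

end Fermat.Agent.S48.H428
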