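import Mathlib

/-!
# S48 / INT / AUX sub-piece GEN4 (helper428): `Γ₁(4)` is generated by `T` and `W = [[1,0],[4,1]]`

* `gamma1_four_le_closure : Gamma1 4 ≤ Subgroup.closure {T, W4}` (descent on `|c| + |d|`);
* `slash_eq_of_mem_gamma1_four`: a function `f : ℍ → ℂ` with `f ∣[k] T = f` and `f ∣[k] W4 = f`
  satisfies `f ∣[k] γ = f` for every `γ ∈ Γ₁(4)`.
-/

set_option autoImplicit false

open Matrix CongruenceSubgroup ModularGroup UpperHalfPlane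
open scoped MatrixGroups ModularForm

namespace Fermat.Agent.S48.H428

/-- `W = [[1, 0], [4, 1]]`. -/
def W4 : SL(2, ℤ) := ⟨!![1, 0; 4, 1], by simp [Matrix.det_fin_two]⟩

/-- `W⁻¹ = [[1, 0], [-4, 1]]`. -/
def W4' : SL(2, ℤ) := ⟨!![1, 0; -4, 1], by simp [Matrix.det_fin_two]⟩

lemma coe_W4 : (W4 : Matrix (Fin 2) (Fin 2) ℤ) = !![1, 0; 4, 1] := rfl

lemma coe_W4' : (W4' : Matrix (Fin 2) (Fin 2) ℤ) = !![1, 0; -4, 1] := rfl

lemma W4_mul_W4' : W4 * W4' = 1 := by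
  ext i j
  fin_cases i <;> fin_cases j <;> simp [coe_W4, coe_W4', Matrix.mul_apply, Fin.sum_univ_two]

lemma W4'_mul_W4 : W4' * W4 = 1 := by
  ext i j
  fin_cases i <;> fin_cases j <;> simp [coe_W4, coe_W4', Matrix.mul_apply, Fin.sum_univ_two]

lemma W4'_eq_inv : W4' = W4⁻¹ := eq_inv_of_mul_eq_one_left W4'_mul_W4

/-- Membership in `Γ₁(4)` in terms of divisibility. -/
lemma mem_gamma1_four_iff (γ : SL(2, ℤ)) :
    γ ∈ Gamma1 4 ↔ (4 : ℤ) ∣ (γ : Matrix (Fin 2) (Fin 2) ℤ) 0 0 - 1 ∧ (4 : ℤ) ∣ (γ : Matrix (Fin 2) (Fin 2) ℤ) 1 1 - 1 ∧ (4 : ℤ) ∣ (γ : Matrix (Fin 2) (Fin 2) ℤ) 1 0 := by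
  rw [Gamma1_mem]
  have h1 : ∀ a : ℤ, ((a : ZMod 4) = 1) ↔ (4 : ℤ) ∣ a - 1 := by
    intro a
    have := (ZMod.intCast_eq_intCast_iff_dvd_sub 1 a 4)
    rw [eq_comm] at this
    simpa using this
  have h0 : ∀ a : ℤ, ((a : ZMod 4) = 0) ↔ (4 : ℤ) ∣ a := by
    intro a
    simpa using ZMod.intCast_zmod_eq_zero_iff_dvd a 4
  rw [h1, h1, h0]

lemma T_mem_gamma1_four : T ∈ Gamma1 4 := by
  rw [mem_gamma1_four_iff, coe_T]
  simp

lemma W4_mem_gamma1_four : W4 ∈ Gamma1 4 := by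
  rw [mem_gamma1_four_iff, coe_W4]
  simp

lemma det_eq_one' (γ : SL(2, ℤ)) : (γ : Matrix (Fin 2) (Fin 2) ℤ) 0 0 * (γ : Matrix (Fin 2) (Fin 2) ℤ) 1 1 - (γ : Matrix (Fin 2) (Fin 2) ℤ) 0 1 * (γ : Matrix (Fin 2) (Fin 2) ℤ) 1 0 = 1 := by
  have := γ.2
  rwa [Matrix.det_fin_two] at this

/-- The descent. -/
theorem mem_closure_of_mem_gamma1_four : ∀ (n : ℕ) (γ : SL(2, ℤ)), γ ∈ Gamma1 4 →
    ((γ : Matrix (Fin 2) (Fin 2) ℤ) 1 0).natAbs + ((γ : Matrix (Fin 2) (Fin 2) ℤ) 1 1).natAbs = n →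
    γ ∈ Subgroup.closure ({T, W4} : Set SL(2, ℤ)) := by
  intro n
  induction n using Nat.strong_induction_on with
  | _ n ih =>
    intro γ hγ hn
    have hTc : T ∈ Subgroup.closure ({T, W4} : Set SL(2, ℤ)) :=
      Subgroup.subset_closure (by simp)
    have hWc : W4 ∈ Subgroup.closure ({T, W4} : Set SL(2, ℤ)) :=
      Subgroup.subset_closure (by simp)
    have hdet := det_eq_one' γ
    obtain ⟨ha, hd, hc⟩ := (mem_gamma1_four_iff γ).mp hγ
    -- one step of the descent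
    have step : ∀ g : SL(2, ℤ), g ∈ Gamma1 4 → g ∈ Subgroup.closure ({T, W4} : Set SL(2, ℤ)) →
        (((γ * g : SL(2, ℤ)) : Matrix (Fin 2) (Fin 2) ℤ) 1 0).natAbs + (((γ * g : SL(2, ℤ)) : Matrix (Fin 2) (Fin 2) ℤ) 1 1).natAbs < n →
        γ ∈ Subgroup.closure ({T, W4} : Set SL(2, ℤ)) := by
      intro g hg hgc hlt
      have h1 := ih _ hlt (γ * g) (Subgroup.mul_mem _ hγ hg) rfl
      have h2 : γ = (γ * g) * g⁻¹ := by rw [mul_inv_cancel_right]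
      rw [h2]
      exact Subgroup.mul_mem _ h1 (Subgroup.inv_mem _ hgc)
    by_cases hc0 : (γ : Matrix (Fin 2) (Fin 2) ℤ) 1 0 = 0
    · -- `c = 0`: `γ = T ^ b`
      rw [hc0, mul_zero, sub_zero] at hdet
      have had : (γ : Matrix (Fin 2) (Fin 2) ℤ) 0 0 = 1 ∧ (γ : Matrix (Fin 2) (Fin 2) ℤ) 1 1 = 1 := by
        rcases Int.eq_one_or_neg_one_of_mul_eq_one' hdet with h | h
        · exact h
        · exfalso
          rw [h.1] at ha
          omega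
      have : γ = T ^ ((γ : Matrix (Fin 2) (Fin 2) ℤ) 0 1) := by
        ext i j
        rw [coe_T_zpow]
        fin_cases i <;> fin_cases j <;> simp [had.1, had.2, hc0]
      rw [this]
      exact Subgroup.zpow_mem _ hTc _
    · -- `c ≠ 0`
      have hTe : ∀ i j, ((γ * T : SL(2, ℤ)) : Matrix (Fin 2) (Fin 2) ℤ) i j = ((γ : Matrix (Fin 2) (Fin 2) ℤ) * (!![1, 1; 0, 1] : Matrix (Fin 2) (Fin 2) ℤ)) i j := by
        intro i j
        rw [Matrix.SpecialLinearGroup.coe_mul, coe_T]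
      have hTe' : ∀ i j, ((γ * T⁻¹ : SL(2, ℤ)) : Matrix (Fin 2) (Fin 2) ℤ) i j =
          ((γ : Matrix (Fin 2) (Fin 2) ℤ) * (!![1, -1; 0, 1] : Matrix (Fin 2) (Fin 2) ℤ)) i j := by
        intro i j
        rw [Matrix.SpecialLinearGroup.coe_mul, coe_T_inv]
      have hWe : ∀ i j, ((γ * W4 : SL(2, ℤ)) : Matrix (Fin 2) (Fin 2) ℤ) i j =
          ((γ : Matrix (Fin 2) (Fin 2) ℤ) * (!![1, 0; 4, 1] : Matrix (Fin 2) (Fin 2) ℤ)) i j := by
        intro i j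
        rw [Matrix.SpecialLinearGroup.coe_mul, coe_W4]
      have hWe' : ∀ i j, ((γ * W4' : SL(2, ℤ)) : Matrix (Fin 2) (Fin 2) ℤ) i j =
          ((γ : Matrix (Fin 2) (Fin 2) ℤ) * (!![1, 0; -4, 1] : Matrix (Fin 2) (Fin 2) ℤ)) i j := by
        intro i j
        rw [Matrix.SpecialLinearGroup.coe_mul, coe_W4']
      have hW'c : W4' ∈ Subgroup.closure ({T, W4} : Set SL(2, ℤ)) := by
        rw [W4'_eq_inv]
        exact Subgroup.inv_mem _ hWc
      have hW'm : W4' ∈ Gamma1 4 := by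
        rw [W4'_eq_inv]
        exact Subgroup.inv_mem _ W4_mem_gamma1_four
      have hT'c : T⁻¹ ∈ Subgroup.closure ({T, W4} : Set SL(2, ℤ)) := Subgroup.inv_mem _ hTc
      have hT'm : T⁻¹ ∈ Gamma1 4 := Subgroup.inv_mem _ T_mem_gamma1_four
      set a := (γ : Matrix (Fin 2) (Fin 2) ℤ) 0 0
      set b := (γ : Matrix (Fin 2) (Fin 2) ℤ) 0 1
      set c := (γ : Matrix (Fin 2) (Fin 2) ℤ) 1 0
      set d := (γ : Matrix (Fin 2) (Fin 2) ℤ) 1 1
      have e1 : ((γ * T : SL(2, ℤ)) : Matrix (Fin 2) (Fin 2) ℤ) 1 0 = c := by rw [hTe]; simp [Matrix.mul_apply, Fin.sum_univ_two, c]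
      have e2 : ((γ * T : SL(2, ℤ)) : Matrix (Fin 2) (Fin 2) ℤ) 1 1 = c + d := by
        rw [hTe]; simp [Matrix.mul_apply, Fin.sum_univ_two, c, d]
      have e3 : ((γ * T⁻¹ : SL(2, ℤ)) : Matrix (Fin 2) (Fin 2) ℤ) 1 0 = c := by rw [hTe']; simp [Matrix.mul_apply, Fin.sum_univ_two, c]
      have e4 : ((γ * T⁻¹ : SL(2, ℤ)) : Matrix (Fin 2) (Fin 2) ℤ) 1 1 = -c + d := by
        rw [hTe']; simp [Matrix.mul_apply, Fin.sum_univ_two, c, d]
      have e5 : ((γ * W4 : SL(2, ℤ)) : Matrix (Fin 2) (Fin 2) ℤ) 1 0 = c + d * 4 := by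
        rw [hWe]; simp [Matrix.mul_apply, Fin.sum_univ_two, c, d]
      have e6 : ((γ * W4 : SL(2, ℤ)) : Matrix (Fin 2) (Fin 2) ℤ) 1 1 = d := by rw [hWe]; simp [Matrix.mul_apply, Fin.sum_univ_two, d]
      have e7 : ((γ * W4' : SL(2, ℤ)) : Matrix (Fin 2) (Fin 2) ℤ) 1 0 = c + -(d * 4) := by
        rw [hWe']; simp [Matrix.mul_apply, Fin.sum_univ_two, c, d]
      have e8 : ((γ * W4' : SL(2, ℤ)) : Matrix (Fin 2) (Fin 2) ℤ) 1 1 = d := by rw [hWe']; simp [Matrix.mul_apply, Fin.sum_univ_two, d]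
      have hcase : (|c + d| < |d| ∨ |-c + d| < |d|) ∨ (|c + d * 4| < |c| ∨ |c + -(d * 4)| < |c|) := by
        obtain ⟨c', hc'⟩ := hc
        obtain ⟨d', hd'⟩ := hd
        have hc0' : c ≠ 0 := hc0
        rcases abs_cases c with ⟨h1, h2⟩ | ⟨h1, h2⟩ <;>
          rcases abs_cases d with ⟨h3, h4⟩ | ⟨h3, h4⟩ <;>
          rcases abs_cases (c + d) with ⟨h5, h6⟩ | ⟨h5, h6⟩ <;>
          rcases abs_cases (-c + d) with ⟨h7, h8⟩ | ⟨h7, h8⟩ <;>
          rcases abs_cases (c + d * 4) with ⟨h9, h10⟩ | ⟨h9, h10⟩ <;>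
          rcases abs_cases (c + -(d * 4)) with ⟨h11, h12⟩ | ⟨h11, h12⟩ <;>
          omega
      have habs : ∀ x y : ℤ, |x| < |y| → x.natAbs < y.natAbs := by
        intro x y h
        rw [Int.abs_eq_natAbs, Int.abs_eq_natAbs] at h
        exact_mod_cast h
      rcases hcase with (h | h) | (h | h)
      · exact step T T_mem_gamma1_four hTc (by rw [e1, e2, ← hn]; have := habs _ _ h; omega)
      · exact step T⁻¹ hT'm hT'c (by rw [e3, e4, ← hn]; have := habs _ _ h; omega)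
      · exact step W4 W4_mem_gamma1_four hWc (by rw [e5, e6, ← hn]; have := habs _ _ h; omega)
      · exact step W4' hW'm hW'c (by rw [e7, e8, ← hn]; have := habs _ _ h; omega)

/-- `Γ₁(4)` is generated by `T` and `W = [[1, 0], [4, 1]]`. -/
theorem gamma1_four_le_closure : Gamma1 4 ≤ Subgroup.closure ({T, W4} : Set SL(2, ℤ)) :=
  fun γ hγ => mem_closure_of_mem_gamma1_four _ γ hγ rfl

/-- `Γ₁(4)` is the subgroup generated by `T` and `W`. -/
theorem gamma1_four_eq_closure : Gamma1 4 = Subgroup.closure ({T, W4} : Set SL(2, ℤ)) := by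
  refine le_antisymm gamma1_four_le_closure ((Subgroup.closure_le _).mpr ?_)
  rintro γ (rfl | rfl)
  · exact T_mem_gamma1_four
  · exact W4_mem_gamma1_four

/-- **GEN4.** A function invariant under `T` and `W` (weight `k` slash action) is invariant
under `Γ₁(4)`. -/
theorem slash_eq_of_mem_gamma1_four {f : ℍ → ℂ} {k : ℤ} (hT : f ∣[k] T = f)
    (hW : f ∣[k] W4 = f) : ∀ γ ∈ Gamma1 4, f ∣[k] γ = f := by
  intro γ hγ
  have hγ' := gamma1_four_le_closure hγ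
  clear hγ
  induction hγ' using Subgroup.closure_induction with
  | mem x hx =>
    rcases hx with rfl | rfl
    · exact hT
    · exact hW
  | one => exact SlashAction.slash_one k f
  | mul x y _ _ hx hy =>
    rw [SlashAction.slash_mul, hx, hy]
  | inv x _ hx =>
    have h1 : (f ∣[k] x) ∣[k] x⁻¹ = f := by
      rw [← SlashAction.slash_mul, mul_inv_cancel, SlashAction.slash_one]
    rw [hx] at h1
    exact h1

end Fermat.Agent.S48.H428
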