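import Fermat.Agent.S24.Mod.H997HolBase

/-!
# S48 / RES (Tower A1) — NORMID1, part 1: the analytic frame (helper428)

A generator-free frame for "`q`-series over `ℚ̄` with a meromorphic avatar of level `L`", on top of
the S24 analytic layer (`holN L`, `InfExp`, `compSL`):

* `HolField L = Frac (holN L)` with the expansion `holExp L : HolField L →+* ℂ((z))`
  (`z = exp(2πiτ/L)`) and the translation `holAct L g` (`f ↦ f ∘ g`, `g ∈ SL(2,ℤ)`);
* `avatarFieldC L : Subfield ℚ̄((q))` : the `q`-series `f` such that `Φ_L f = f(z^L)` (coefficients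
  through `ιK : ℚ̄ → ℂ`) is the expansion of an element of `HolField L`;
* `sigC L g : avatarFieldC L →+* ℂ((z))` : `f ↦` expansion of `(avatar of f) ∘ g`;
* `mem_avatarFieldC_of_hol`, `sigC_of_hol` : membership and the value of `sigC` from a holomorphic
  avatar; `sigC_one` : `sigC L 1 = Φ_L`.
-/

set_option autoImplicit false
set_option linter.unusedSectionVars false
set_option linter.style.haveILetI false

noncomputable section

open ModularCurve HahnSeries UpperHalfPlane
open scoped MatrixGroups

namespace Fermat.Agent.S48.H428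

open Fermat.Agent.S24 Fermat.Agent.S24.H997

variable (L : ℕ) [NeZero L]

/-! ### The ring `holN L` -/

/-- The expansion at `∞` (variable `z = exp(2πiτ/L)`) on `holN L`. -/
def holExp0 : holN L →+* LaurentSeries ℂ := (expInf L).comp (holToExp L)

theorem holExp0_injective : Function.Injective (holExp0 L) :=
  expInf_injective.comp (holToExp_injective L)

theorem holExp0_spec (f : holN L) : InfExp L (f : ℍ → ℂ) (holExp0 L f) :=
  expInf_spec (holToExp L f)

variable {L} in
theorem holExp0_eq {f : holN L} {φ : LaurentSeries ℂ} (h : InfExp L (f : ℍ → ℂ) φ) :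
    holExp0 L f = φ :=
  (holExp0_spec L f).unique h

instance holN_isDomain : IsDomain (holN L) :=
  Function.Injective.isDomain (holExp0 L) (holExp0_injective L)

/-- Precomposition with `g ∈ SL(2,ℤ)` on `holN L`. -/
def holComp (g : SL(2, ℤ)) : holN L →+* holN L where
  toFun f := ⟨compSL g f.1, comp_mem_holN L g f.1 f.2⟩
  map_one' := rfl
  map_mul' _ _ := rfl
  map_zero' := rfl
  map_add' _ _ := rfl

variable {L} in
@[simp] theorem holComp_coe (g : SL(2, ℤ)) (f : holN L) :
    ((holComp L g f : holN L) : ℍ → ℂ) = compSL g (f : ℍ → ℂ) := rfl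

theorem holComp_injective (g : SL(2, ℤ)) : Function.Injective (holComp L g) := by
  intro f f' h
  apply Subtype.ext
  have h1 : compSL g (f : ℍ → ℂ) = compSL g (f' : ℍ → ℂ) := congrArg Subtype.val h
  have h2 := congrArg (compSL g⁻¹) h1
  rwa [← compSL_mul, ← compSL_mul, mul_inv_cancel, compSL_one, compSL_one] at h2

/-! ### The field `HolField L` -/

/-- The field of meromorphic functions of level `L`: fractions of elements of `holN L`. -/
abbrev HolField : Type := FractionRing (holN L)

/-- The expansion at `∞` on `HolField L`. -/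
def holExp : HolField L →+* LaurentSeries ℂ :=
  IsFractionRing.lift (holExp0_injective L)

variable {L} in
@[simp] theorem holExp_algebraMap (f : holN L) :
    holExp L (algebraMap (holN L) (HolField L) f) = holExp0 L f :=
  IsFractionRing.lift_algebraMap (holExp0_injective L) f

theorem holExp_injective : Function.Injective (holExp L) := (holExp L).injective

/-- Translation by `g ∈ SL(2,ℤ)` on `HolField L`: `f ↦ f ∘ g`. -/
def holAct (g : SL(2, ℤ)) : HolField L →+* HolField L :=
  IsFractionRing.lift (g := (algebraMap (holN L) (HolField L)).comp (holComp L g))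
    ((IsFractionRing.injective (holN L) (HolField L)).comp (holComp_injective L g))

variable {L} in
@[simp] theorem holAct_algebraMap (g : SL(2, ℤ)) (f : holN L) :
    holAct L g (algebraMap (holN L) (HolField L) f)
      = algebraMap (holN L) (HolField L) (holComp L g f) :=
  IsFractionRing.lift_algebraMap _ f

/-- The expansion at `∞` of the translate by `g`. -/
def sigH (g : SL(2, ℤ)) : HolField L →+* LaurentSeries ℂ := (holExp L).comp (holAct L g)

variable {L} in
theorem sigH_algebraMap (g : SL(2, ℤ)) (f : holN L) :
    sigH L g (algebraMap (holN L) (HolField L) f) = holExp0 L (holComp L g f) := by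
  rw [sigH, RingHom.comp_apply, holAct_algebraMap, holExp_algebraMap]

/-! ### `q`-series with an avatar -/

/-- The `q`-series over `ℚ̄` with a (meromorphic) avatar of level `L`. -/
def avatarFieldC : Subfield (LaurentSeries Kbar) :=
  (holExp L).fieldRange.comap (HolBase.Φ L)

variable {L} in
theorem mem_avatarFieldC {f : LaurentSeries Kbar} :
    f ∈ avatarFieldC L ↔ ∃ y : HolField L, holExp L y = HolBase.Φ L f := Iff.rfl

variable {L} in
/-- A holomorphic avatar suffices. -/
theorem mem_avatarFieldC_of_hol {f : LaurentSeries Kbar} {A : ℍ → ℂ} (hA : A ∈ holN L)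
    (hexp : InfExp L A (HolBase.Φ L f)) : f ∈ avatarFieldC L :=
  ⟨algebraMap (holN L) (HolField L) ⟨A, hA⟩, by
    rw [holExp_algebraMap]
    exact holExp0_eq (f := ⟨A, hA⟩) hexp⟩

/-- The avatar of a `q`-series. -/
def avatarEmbC : avatarFieldC L →+* HolField L where
  toFun f := Classical.choose (mem_avatarFieldC.1 f.2)
  map_one' := by
    apply holExp_injective L
    rw [Classical.choose_spec (mem_avatarFieldC.1 (1 : avatarFieldC L).2), RingHom.map_one]
    exact RingHom.map_one _
  map_mul' f g := by
    apply holExp_injective L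
    rw [RingHom.map_mul, Classical.choose_spec (mem_avatarFieldC.1 (f * g).2),
      Classical.choose_spec (mem_avatarFieldC.1 f.2),
      Classical.choose_spec (mem_avatarFieldC.1 g.2)]
    exact RingHom.map_mul _ _ _
  map_zero' := by
    apply holExp_injective L
    rw [Classical.choose_spec (mem_avatarFieldC.1 (0 : avatarFieldC L).2), RingHom.map_zero]
    exact RingHom.map_zero _
  map_add' f g := by
    apply holExp_injective L
    rw [RingHom.map_add, Classical.choose_spec (mem_avatarFieldC.1 (f + g).2),
      Classical.choose_spec (mem_avatarFieldC.1 f.2),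
      Classical.choose_spec (mem_avatarFieldC.1 g.2)]
    exact RingHom.map_add _ _ _

variable {L} in
theorem holExp_avatarEmbC (f : avatarFieldC L) :
    holExp L (avatarEmbC L f) = HolBase.Φ L (f : LaurentSeries Kbar) :=
  Classical.choose_spec (mem_avatarFieldC.1 f.2)

variable {L} in
theorem avatarEmbC_eq_iff (f : avatarFieldC L) (y : HolField L) :
    avatarEmbC L f = y ↔ holExp L y = HolBase.Φ L (f : LaurentSeries Kbar) := by
  constructor
  · rintro rfl
    exact holExp_avatarEmbC f
  · intro h
    apply holExp_injective L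
    rw [h, holExp_avatarEmbC]

variable {L} in
theorem avatarEmbC_of_hol {f : LaurentSeries Kbar} (hf : f ∈ avatarFieldC L) {A : ℍ → ℂ}
    (hA : A ∈ holN L) (hexp : InfExp L A (HolBase.Φ L f)) :
    avatarEmbC L ⟨f, hf⟩ = algebraMap (holN L) (HolField L) ⟨A, hA⟩ := by
  rw [avatarEmbC_eq_iff, holExp_algebraMap]
  exact holExp0_eq (f := ⟨A, hA⟩) hexp

/-- `f ↦` the expansion at `∞` of `(avatar of f) ∘ g`. -/
def sigC (g : SL(2, ℤ)) : avatarFieldC L →+* LaurentSeries ℂ :=
  (sigH L g).comp (avatarEmbC L)

variable {L} in
/-- The value of `sigC` from a holomorphic avatar. -/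
theorem sigC_of_hol {f : LaurentSeries Kbar} (hf : f ∈ avatarFieldC L) {A : ℍ → ℂ}
    (hA : A ∈ holN L) (hexp : InfExp L A (HolBase.Φ L f)) (g : SL(2, ℤ))
    {ψ : LaurentSeries ℂ} (hψ : InfExp L (compSL g A) ψ) :
    sigC L g ⟨f, hf⟩ = ψ := by
  rw [sigC, RingHom.comp_apply, avatarEmbC_of_hol hf hA hexp, sigH_algebraMap]
  exact holExp0_eq (f := holComp L g ⟨A, hA⟩) hψ

variable {L} in
theorem holAct_one (y : HolField L) : holAct L 1 y = y := by
  have h : holAct L 1 = RingHom.id (HolField L) := by
    apply IsLocalization.ringHom_ext (nonZeroDivisors (holN L))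
    ext f
    rw [RingHom.comp_apply, holAct_algebraMap, RingHom.comp_apply, RingHom.id_apply]
    congr 1
    apply Subtype.ext
    rw [holComp_coe, compSL_one]
  rw [h, RingHom.id_apply]

variable {L} in
theorem sigC_one (f : avatarFieldC L) : sigC L 1 f = HolBase.Φ L (f : LaurentSeries Kbar) := by
  rw [sigC, RingHom.comp_apply, sigH, RingHom.comp_apply, holAct_one, holExp_avatarEmbC]

end Fermat.Agent.S48.H428
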