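import Fermat.Agent.S48.H428.HolFrame
import Fermat.Prelude.Thm_ModularCurve_coeffMap_qExpand
import Fermat.Agent.S24.Mod.H564HolBase

/-!
# S48 / RES (Tower A1) — NORMID1, part 2: change of level for avatars (helper428)

`f : ℍ → ℂ` with an expansion `φ` in `q = exp(2πiτ)` (`InfExp 1 f φ`):
* `infExp_level`    : `f` has the expansion `φ(z^L)` in `z = exp(2πiτ/L)`;
* `infExp_comp_mul` : `τ ↦ f(pτ)` has the expansion `φ(z^{Lp})`;
* `infExp_comp_div` : `τ ↦ f((τ+b)/p)` has the expansion `φ(ζ_p^b z^M)` in `z = exp(2πiτ/(Mp))`;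
* `holN_mul_right`  : `holN M ≤ holN (M p)`;
* `comp_mul_mem_holN` : `f ∈ holN M ⟹ f(p ·) ∈ holN (M p)`.
-/

set_option autoImplicit false
set_option linter.unusedSectionVars false
set_option linter.style.haveILetI false

noncomputable section

open ModularCurve HahnSeries UpperHalfPlane
open scoped MatrixGroups

namespace Fermat.Agent.S48.H428

open Fermat.Agent.S24 Fermat.Agent.S24.H997

theorem coeffMap_ιK_coeffEmb_g (x : LaurentSeries ℚ) :
    coeffMap ιK (coeffEmb Kbar x) = coeffEmb ℂ x := by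
  rw [coeffEmb, coeffMap_coeffMap, coeffEmb]
  refine coeffMap_congr (RingHom.ext fun c => ?_) x
  rw [RingHom.comp_apply, ιK_algebraMap]
  simp

/-- `Φ_L` on rational series. -/
theorem Φ_coeffEmb (L : ℕ) [NeZero L] (x : LaurentSeries ℚ) :
    HolBase.Φ L (coeffEmb Kbar x) = qExpand ℂ L (coeffEmb ℂ x) := by
  show qExpand ℂ L (coeffMap ιK (coeffEmb Kbar x)) = _
  rw [coeffMap_ιK_coeffEmb_g]

/-- `Φ_M ∘ V_p = Φ_{M p}`. -/
theorem Φ_qExpand_g (M p : ℕ) [NeZero M] [NeZero p] [NeZero (M * p)] (x : LaurentSeries Kbar) :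
    HolBase.Φ M (qExpand Kbar p x) = HolBase.Φ (M * p) x := by
  show qExpand ℂ M (coeffMap ιK (qExpand Kbar p x)) = qExpand ℂ (M * p) (coeffMap ιK x)
  rw [coeffMap_qExpand, qExpand_qExpand]

section Exp

variable {f : ℍ → ℂ} {φ : LaurentSeries ℂ}

theorem infExp_level (h : InfExp 1 f φ) (L : ℕ) [NeZero L] : InfExp L f (qExpand ℂ L φ) := by
  have hL : 0 < L := Nat.pos_of_ne_zero (NeZero.ne L)
  have h1 := h.comp_infAff (e := L) (a := 1) (d := 1) (N := L) 0 one_pos one_pos one_pos hL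
    (by ring)
  rw [infRoot_zero, infTwist_one] at h1
  exact h1.congr fun τ => by rw [infAff_one_zero_one]

theorem infExp_comp_mul (h : InfExp 1 f φ) (L p : ℕ) [NeZero L] [NeZero p] [NeZero (L * p)] :
    InfExp L (fun τ => f (infAff p 0 1 τ)) (qExpand ℂ (L * p) φ) := by
  have hL : 0 < L := Nat.pos_of_ne_zero (NeZero.ne L)
  have hp : 0 < p := Nat.pos_of_ne_zero (NeZero.ne p)
  have h1 := h.comp_infAff (e := L * p) (a := p) (d := 1) (N := L) 0 hp one_pos one_pos hL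
    (by ring)
  rw [infRoot_zero, infTwist_one] at h1
  exact h1

theorem infExp_comp_div (h : InfExp 1 f φ) (M p : ℕ) [NeZero M] [NeZero p] [NeZero (M * p)]
    (b : ℤ) :
    InfExp (M * p) (fun τ => f (infAff 1 b p τ)) (qExpand ℂ M (infTwist (infRoot b p) φ)) := by
  have hM : 0 < M := Nat.pos_of_ne_zero (NeZero.ne M)
  have hp : 0 < p := Nat.pos_of_ne_zero (NeZero.ne p)
  have h1 := h.comp_infAff (e := M) (a := 1) (d := p) (N := M * p) b one_pos hp one_pos
    (Nat.mul_pos hM hp) (by ring)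
  rw [mul_one] at h1
  exact h1

end Exp

section Hol

variable {M : ℕ} [NeZero M]

/-- `holN M ≤ holN (M p)`. -/
theorem holN_mul_right (p : ℕ) [NeZero p] [NeZero (M * p)] {f : ℍ → ℂ} (hf : f ∈ holN M) :
    f ∈ holN (M * p) := by
  have hM : 0 < M := Nat.pos_of_ne_zero (NeZero.ne M)
  have hp : 0 < p := Nat.pos_of_ne_zero (NeZero.ne p)
  refine ⟨hf.1, fun γ => ?_⟩
  obtain ⟨φ, hφ⟩ := hf.2 γ
  have h1 := hφ.comp_infAff (e := p) (a := 1) (d := 1) (N := M * p) 0 one_pos one_pos hM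
    (Nat.mul_pos hM hp) (by ring)
  have h2 : InfExp (M * p) (compSL γ f) (qExpand ℂ p (infTwist (infRoot 0 (1 * M)) φ)) :=
    h1.congr fun τ => by rw [infAff_one_zero_one]
  exact h2.mem_expRing

/-- `f ∈ holN M ⟹ (τ ↦ f (p τ)) ∈ holN (M p)`. -/
theorem comp_mul_mem_holN (p : ℕ) [NeZero p] [NeZero (M * p)] {f : ℍ → ℂ} (hf : f ∈ holN M) :
    (fun τ => f (infAff p 0 1 τ)) ∈ holN (M * p) := by
  have hp : 0 < p := Nat.pos_of_ne_zero (NeZero.ne p)
  have hM : 0 < M := Nat.pos_of_ne_zero (NeZero.ne M)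
  refine ⟨H564.mdiff_comp_infAff hf.1 hp one_pos 0, fun g => ?_⟩
  obtain ⟨γ', a, d', b, ha, hd', had, h00, h01, h10, h11⟩ := inf_exists_hnf p hp g
  obtain ⟨φ, hφ⟩ := hf.2 γ'
  haveI : NeZero (a * a) := ⟨(Nat.mul_pos ha ha).ne'⟩
  have he : a * a * (d' * M) = a * (M * p) := by
    rw [← had]; ring
  have h := hφ.comp_infAff (e := a * a) b ha hd' hM (Nat.mul_pos hM hp) he
  have h2 : compSL g (fun τ => f (infAff p 0 1 τ))
      = fun τ => compSL γ' f (infAff a b d' τ) := by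
    funext τ
    show f (infAff p 0 1 (g • τ)) = f (γ' • infAff a b d' τ)
    rw [inf_aff_smul_eq hp ha hd' g γ' h00 h01 h10 h11 τ]
  rw [h2]
  exact h.mem_expRing

end Hol

end Fermat.Agent.S48.H428
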