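import Fermat.Agent.S48.INT.Spec

/-!
# S48 / INT piece ASM (helper428): assembly of the piece INT

`intAssembly : INT.AssemblyPiece` (exact shape of `Fermat/Agent/S48/INT/Spec.lean`):
`EigenConjStatement'` from W2, AUX, DIVF, DIV, RES, LAT, ORD and CONJ, with `M = 8 N` and
`K = eigenField N ε f`.
-/

set_option autoImplicit false

open CongruenceSubgroup UpperHalfPlane
open scoped MatrixGroups ModularForm

namespace Fermat.Agent.S48.H428

open Fermat.Agent.S48.Top Fermat.Agent.S48.INT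

/-- **ASM.** -/
theorem intAssembly : INT.AssemblyPiece := by
  intro hW2 hAux hDivF hDiv hRes hLat hOrd hConj N _ ε f hf
  have hN : N ≠ 0 := NeZero.ne N
  have hM : 8 * N ≠ 0 := by omega
  haveI : NeZero (8 * N) := ⟨hM⟩
  have hNM : N ∣ 8 * N := Dvd.intro_left 8 rfl
  have h8M : 8 ∣ 8 * N := Dvd.intro N rfl
  have hI2 : IntStr (8 * N) 2 := hW2 (8 * N) hM h8M
  have hI1 : IntStr (8 * N) 1 := hDiv hAux hDivF (8 * N) hM h8M hI2
  obtain ⟨g, hg⟩ := hRes N (8 * N) 1 hNM hM f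
  have hgE : IsEigenFun N ε (g : ℍ → ℂ) := by
    rw [hg]
    exact hf
  obtain ⟨hfin, hint⟩ := hOrd N ε (g : ℍ → ℂ) hgE (hLat (8 * N) 1 hI1 g)
  refine ⟨eigenField N ε (g : ℍ → ℂ), hfin, ?_, ?_⟩
  · intro p hp hpN
    refine ⟨?_, ?_⟩
    · rw [← hg]
      exact IntermediateField.subset_adjoin ℚ _ (Or.inl ⟨p, hp, hpN, rfl⟩)
    · rw [← hg]
      exact hint p hp hpN
  · intro τ
    obtain ⟨ε', f', hf', hτ⟩ := hConj N ε (8 * N) hNM hI1 g hgE τ
    refine ⟨8 * N, inferInstance, ε', f', hNM, hf', ?_⟩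
    intro p hp hpM x hx
    exact hτ p hp hpM x (by rw [hx, hg])

end Fermat.Agent.S48.H428
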