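import Fermat.Agent.S48.H428.HolLevel
import Fermat.Agent.S48.H76.Avatar

/-!
# S48 / RES (Tower A1) — NORMID1, part 3: avatars of the generators of `F1(M; p)` (helper428)

`IsAv M x A` : the rational `q`-series `x` has the holomorphic avatar `A ∈ holN M`
(`InfExp 1 A x`).  For a prime-to-`M` level raising `L = M p`:

* `IsAv.mem`      : `x ∈ avatarFieldC (M p)`;
* `IsAv.mem_V`    : `V_p x = x(q^p) ∈ avatarFieldC (M p)` (avatar `A(p τ)`);
* `IsAv.sig_fix`  : `sigC g x = Φ x` when `A ∘ g = A`;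
* `IsAv.sig_V`    : `sigC h (V_p x) = Φ_M (x'(ζ_p^b u))` when `diag(p,1) h = δ [[1,b],[0,p]]` and
  `A ∘ δ` is the avatar of `x'`;
* `isAv_jd`, `isAv_divGen` : the avatars `j(dτ)` (S24) and `pFun M a` (helper76) of the generators
  of `F1 M`.
-/

set_option autoImplicit false
set_option linter.unusedSectionVars false
set_option linter.style.haveILetI false

noncomputable section

open ModularCurve HahnSeries UpperHalfPlane
open scoped MatrixGroups

namespace Fermat.Agent.S48.H428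

open Fermat.Agent.S24 Fermat.Agent.S24.H997 Fermat.Agent.S48.F1

/-- `x ∈ ℚ((q))` has the holomorphic avatar `A` of level `M`. -/
structure IsAv (M : ℕ) (x : LaurentSeries ℚ) (A : ℍ → ℂ) : Prop where
  hol : A ∈ holN M
  exp : InfExp 1 A (coeffEmb ℂ x)

section Generic

variable {M : ℕ} [NeZero M] {p : ℕ} [NeZero p] [NeZero (M * p)]
variable {x x' : LaurentSeries ℚ} {A A' : ℍ → ℂ}

theorem IsAv.exp_level (h : IsAv M x A) :
    InfExp (M * p) A (HolBase.Φ (M * p) (coeffEmb Kbar x)) := by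
  rw [Φ_coeffEmb]
  exact infExp_level h.exp (M * p)

theorem IsAv.mem (h : IsAv M x A) : coeffEmb Kbar x ∈ avatarFieldC (M * p) :=
  mem_avatarFieldC_of_hol (holN_mul_right p h.hol) h.exp_level

theorem coeffEmb_qExpand_g (L : Type*) [Field L] [Algebra ℚ L] (n : ℕ) [NeZero n]
    (y : LaurentSeries ℚ) : coeffEmb L (qExpand ℚ n y) = qExpand L n (coeffEmb L y) :=
  coeffMap_qExpand _ n y

theorem IsAv.exp_V (h : IsAv M x A) :
    InfExp (M * p) (fun τ => A (infAff p 0 1 τ))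
      (HolBase.Φ (M * p) (coeffEmb Kbar (qExpand ℚ p x))) := by
  haveI : NeZero (M * p * p) := ⟨Nat.mul_ne_zero (NeZero.ne (M * p)) (NeZero.ne p)⟩
  rw [Φ_coeffEmb, coeffEmb_qExpand_g, qExpand_qExpand]
  exact infExp_comp_mul h.exp (M * p) p

theorem IsAv.mem_V (h : IsAv M x A) :
    coeffEmb Kbar (qExpand ℚ p x) ∈ avatarFieldC (M * p) :=
  mem_avatarFieldC_of_hol (comp_mul_mem_holN p h.hol) h.exp_V

/-- `sigC g` fixes a series whose avatar is `g`-invariant. -/
theorem IsAv.sig_fix (h : IsAv M x A) (g : SL(2, ℤ)) (hg : compSL g A = A)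
    (hx : coeffEmb Kbar x ∈ avatarFieldC (M * p)) :
    sigC (M * p) g ⟨coeffEmb Kbar x, hx⟩ = HolBase.Φ (M * p) (coeffEmb Kbar x) :=
  sigC_of_hol hx (holN_mul_right p h.hol) h.exp_level g (by rw [hg]; exact h.exp_level)

/-- `sigC h (V_p x)` when `diag(p,1) h = δ [[1,b],[0,p]]` and `A ∘ δ = A'` is the avatar of
`x'`. -/
theorem IsAv.sig_V (h : IsAv M x A) (h' : IsAv M x' A') (g δ : SL(2, ℤ)) (b : ℤ)
    (h00 : (p : ℤ) * g 0 0 = δ 0 0 * (1 : ℕ))
    (h01 : (p : ℤ) * g 0 1 = δ 0 0 * b + δ 0 1 * p)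
    (h10 : g 1 0 = δ 1 0 * (1 : ℕ)) (h11 : g 1 1 = δ 1 0 * b + δ 1 1 * p)
    (hδ : compSL δ A = A')
    (hx : coeffEmb Kbar (qExpand ℚ p x) ∈ avatarFieldC (M * p)) :
    sigC (M * p) g ⟨coeffEmb Kbar (qExpand ℚ p x), hx⟩
      = qExpand ℂ M (infTwist (infRoot b p) (coeffEmb ℂ x')) := by
  have hp : 0 < p := Nat.pos_of_ne_zero (NeZero.ne p)
  refine sigC_of_hol hx (comp_mul_mem_holN p h.hol) h.exp_V g ?_
  have e : compSL g (fun τ => A (infAff p 0 1 τ)) = fun τ => A' (infAff 1 b p τ) := by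
    funext τ
    show A (infAff p 0 1 (g • τ)) = A' (infAff 1 b p τ)
    rw [inf_aff_smul_eq hp one_pos hp g δ h00 h01 h10 h11 τ, ← hδ]
    rfl
  rw [e]
  exact infExp_comp_div h'.exp M p b

end Generic

/-! ### The avatars of the generators of `F1 M` -/

section Gens

variable (M : ℕ) [NeZero M]

theorem isAv_jd {d : ℕ} [NeZero d] (hd : d ∣ M) : IsAv M (qExpand ℚ d jq) (Jd d) := by
  refine ⟨Jd_mem_holN M d hd, ?_⟩
  have hd0 : 0 < d := Nat.pos_of_ne_zero (NeZero.ne d)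
  have h := inf_J_mul_exp infExp_jFun hd0 one_pos
  rw [coeffEmb_qExpand_g]
  have e : qExpand ℂ d (coeffEmb ℂ jq) = qExpand ℂ (d * 1) infJq :=
    qExpand_congr (mul_one d).symm _
  rw [e]
  exact h

theorem isAv_divGen {a : ZMod M} (ha : a ≠ 0) : IsAv M (divGen M a) (H76.pFun M a) := by
  refine ⟨H76.pFun_mem_holN M a, ?_⟩
  have h := H76.infExp_pFun M ha
  have e : coeffEmb ℂ (divGen M a) = divGenC ℂ M a := by
    rw [divGen, coeffEmb, coeffMap_divGenC]
  rw [e]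
  exact h

end Gens

end Fermat.Agent.S48.H428
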