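import Fermat.Agent.S37.H340.KronTwist
import Fermat.Agent.S37.H400.KronNorm

/-!
# S48 / RES (Tower A1) — node A1-NORM, GENERIC part (helper428)

The hypothesis `NormId` of the raw Eichler–Shimura relation, with a diamond operator, for an
ARBITRARY pair of function fields `F → F'` with `q`-expansions in `K((q))`:

  `Nm_α (β y) = V_ℓ y · det (secMat ℓ (δ y))`      (`= y(q^ℓ) · ∏_{b<ℓ} (δ y)(ζ^b q^{1/ℓ})`).

Inputs (everything else is proved here):
* `α β : F →+* F'` with `q`-expansions `cF' (α y) = cF y`, `cF' (β y) = V_ℓ (cF y)`;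
* the degree bound `[F' : α F] ≤ ℓ + 1`;
* `ℓ` further embeddings `σ b : F' →+* Ω` (`b < ℓ`) into ANY field `Ω` receiving `K((u))` through
  `Ψ`, with `σ b ∘ α = Ψ ∘ V_ℓ ∘ cF` and `σ b (β y) = Ψ ((δ y)(ζ^b u))`;
* one `y₀` such that `δ y₀` has a nonzero coefficient at an index prime to `ℓ` (e.g. `j`).

Main results
* `norm_eq_prod_of_embeddings` : pure field theory (`finrank ≤ #I` distinct embeddings ⟹ the norm
  is the product over them);
* `qExpand_det_secMat_tw` : `V_ℓ (det (secMat ℓ f)) = ∏_b f(ζ^b u)`;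
* `normId_of_embeddings` : the generic NORM-ID with diamond;
* `normId_of_embeddings_coeff` : the same with the twist given coefficientwise.
-/

set_option autoImplicit false
set_option linter.style.haveILetI false

noncomputable section

open ModularCurve Polynomial

namespace Fermat.Agent.S48.H428

open Fermat.Agent.S37

/-! ### Field theory: the norm as a product over sufficiently many embeddings -/

/-- If `F'/F` is finite of degree `≤ #I` (characteristic `0`) and `τ i : F' →+* Ω` (`i : I`) are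
pairwise distinct embeddings into a field, all restricting to the same `ι` on `F`, then the norm
is the product over the `τ i`. -/
theorem norm_eq_prod_of_embeddings {F F' Ω I : Type*} [Field F] [Field F'] [Field Ω]
    [CharZero F] [Algebra F F'] [FiniteDimensional F F'] [Fintype I]
    (hdeg : Module.finrank F F' ≤ Fintype.card I)
    (ι : F →+* Ω) (τ : I → F' →+* Ω) (hτ : ∀ i x, τ i (algebraMap F F' x) = ι x)
    (hinj : Function.Injective τ) (x : F') :
    ι (Algebra.norm F x) = ∏ i, τ i x := by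
  classical
  let E := AlgebraicClosure Ω
  letI : Algebra F E := ((algebraMap Ω E).comp ι).toAlgebra
  have hFE : ∀ a : F, algebraMap F E a = algebraMap Ω E (ι a) := fun _ => rfl
  let τ' : I → F' →ₐ[F] E := fun i =>
    { toRingHom := (algebraMap Ω E).comp (τ i)
      commutes' := fun a => by
        show algebraMap Ω E (τ i (algebraMap F F' a)) = algebraMap F E a
        rw [hτ, hFE] }
  have hτ'_apply : ∀ i z, τ' i z = algebraMap Ω E (τ i z) := fun _ _ => rfl
  have hinj' : Function.Injective τ' := by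
    intro i j hij
    apply hinj
    ext z
    have := DFunLike.congr_fun hij z
    rw [hτ'_apply, hτ'_apply] at this
    exact (algebraMap Ω E).injective this
  haveI : Algebra.IsSeparable F F' := Algebra.IsAlgebraic.isSeparable_of_perfectField
  have hcard : Fintype.card (F' →ₐ[F] E) = Module.finrank F F' := AlgHom.card F F' E
  have hbij : Function.Bijective τ' := by
    rw [Fintype.bijective_iff_injective_and_card]
    refine ⟨hinj', le_antisymm (Fintype.card_le_of_injective _ hinj') ?_⟩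
    rw [hcard]
    exact hdeg
  have h := Algebra.norm_eq_prod_embeddings F E x
  rw [← hbij.prod_comp (fun σ : F' →ₐ[F] E => σ x)] at h
  simp only [hτ'_apply] at h
  rw [hFE, ← map_prod] at h
  exact (algebraMap Ω E).injective h

/-! ### Formal Kronecker identities -/

section Formal

variable {R : Type*} [CommRing R]

/-- H400's section matrix is H340's Kronecker matrix. -/
theorem secMat_eq_kronMat_g (p : ℕ) [NeZero p] (f : LaurentSeries R) :
    H400.secMat p f = H340.kronMat p f := by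
  ext i j n
  rw [H400.secMat_apply', H340.kronMat_apply, H400.secL_coeff, H340.sect_coeff]

/-- `V_ℓ (det (secMat ℓ f)) = ∏_{b<ℓ} f(ζ^b u)`. -/
theorem qExpand_det_secMat_tw [IsDomain R] (ℓ : ℕ) [NeZero ℓ] {ζ : R}
    (hζ : IsPrimitiveRoot ζ ℓ) (f : LaurentSeries R) :
    qExpand R ℓ (H400.secMat ℓ f).det = ∏ b : Fin ℓ, H340.tw ℓ (ζ ^ (b : ℕ)) f := by
  have h := H340.kron_map_qExpand_eq_prod hζ f
  rw [H340.kron, ← secMat_eq_kronMat_g, ← Matrix.charpoly_map] at h
  have hdet : qExpand R ℓ (H400.secMat ℓ f).det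
      = ((H400.secMat ℓ f).map (qExpand R ℓ)).det := by
    rw [RingHom.map_det, RingHom.mapMatrix_apply]
  rw [hdet, Matrix.det_eq_sign_charpoly_coeff, h, Fintype.card_fin,
    Polynomial.coeff_zero_eq_eval_zero, Polynomial.eval_prod]
  simp only [Polynomial.eval_sub, Polynomial.eval_X, Polynomial.eval_C, zero_sub]
  rw [Finset.prod_neg, Finset.card_univ, Fintype.card_fin, ← mul_assoc, ← mul_pow]
  simp only [mul_neg, mul_one, neg_neg, one_pow, one_mul]

/-- the twists `f(ζ^b u)` of a series with a nonzero coefficient prime to `ℓ` are pairwise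
distinct -/
theorem tw_pow_injective [IsDomain R] {ℓ : ℕ} [NeZero ℓ] (hℓ : ℓ.Prime) {ζ : R}
    (hζ : IsPrimitiveRoot ζ ℓ) {f : LaurentSeries R} {n : ℤ} (hn : ¬ (ℓ : ℤ) ∣ n)
    (hf : f.coeff n ≠ 0) :
    Function.Injective fun b : Fin ℓ => H340.tw ℓ (ζ ^ (b : ℕ)) f := by
  intro b b' h
  have h1 := congrArg (fun s : LaurentSeries R => s.coeff n) h
  simp only [H340.tw_coeff] at h1
  have h2 : H340.zpw ℓ (ζ ^ (b : ℕ)) n = H340.zpw ℓ (ζ ^ (b' : ℕ)) n :=
    mul_right_cancel₀ hf h1
  unfold H340.zpw at h2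
  rw [← pow_mul, ← pow_mul] at h2
  -- `ζ ^ (b r) = ζ ^ (b' r)` with `r = n mod ℓ ≠ 0`
  set r : ℕ := (n % (ℓ : ℤ)).toNat with hr
  have hℓ0 : (ℓ : ℤ) ≠ 0 := by exact_mod_cast NeZero.ne ℓ
  have hr0 : 0 ≤ n % (ℓ : ℤ) := Int.emod_nonneg n hℓ0
  have hrℓ : n % (ℓ : ℤ) < ℓ := Int.emod_lt_of_pos n (by exact_mod_cast hℓ.pos)
  have hrne : n % (ℓ : ℤ) ≠ 0 := fun h0 => hn (Int.dvd_of_emod_eq_zero h0)
  have hrpos : 0 < r := by omega
  have hrlt : r < ℓ := by omega
  have hcop : Nat.Coprime ℓ r := Nat.coprime_of_lt_prime hrpos.ne' hrlt hℓ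
  have hmod : (b : ℕ) * r ≡ (b' : ℕ) * r [MOD ℓ] := by
    have key : ∀ m : ℕ, ζ ^ (m % ℓ) = ζ ^ m := by
      intro m
      conv_rhs => rw [← Nat.div_add_mod m ℓ, pow_add, pow_mul, hζ.pow_eq_one, one_pow, one_mul]
    have e1 : ζ ^ ((b : ℕ) * r % ℓ) = ζ ^ ((b' : ℕ) * r % ℓ) := by
      rw [key, key]
      exact h2
    exact hζ.pow_inj (Nat.mod_lt _ hℓ.pos) (Nat.mod_lt _ hℓ.pos) e1
  have hmod' : (b : ℕ) ≡ (b' : ℕ) [MOD ℓ] := Nat.ModEq.cancel_right_of_coprime hcop hmod
  apply Fin.ext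
  have := Nat.ModEq.eq_of_lt_of_lt hmod' b.2 b'.2
  exact this

end Formal

/-! ### The generic NORM-ID with diamond -/

section Main

variable {K : Type*} [Field K] [CharZero K]

omit [CharZero K] in
theorem zpw_ne_zero_g {ℓ : ℕ} {ξ : K} (hξ : ξ ≠ 0) (n : ℤ) : H340.zpw ℓ ξ n ≠ 0 := by
  unfold H340.zpw
  exact pow_ne_zero _ hξ

/-- **A1-NORM, generic form.**  `F → F'` function fields with `q`-expansions `cF`, `cF'` in
`K((q))` (`K` of characteristic `0`), `α` = inclusion, `β = V_ℓ` on `q`-expansions, `[F' : αF] ≤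
ℓ + 1`, and `ℓ` embeddings `σ b : F' →+* Ω` over `Ψ ∘ V_ℓ ∘ cF` with
`σ b (β y) = Ψ ((δ y)(ζ^b u))`.  Then `Nm_α (β y) = V_ℓ y · det (secMat ℓ (δ y))`. -/
theorem normId_of_embeddings (ℓ : ℕ) [NeZero ℓ] (hℓ : ℓ.Prime)
    {F F' Ω : Type*} [Field F] [Field F'] [Field Ω]
    (cF : F →+* LaurentSeries K) (cF' : F' →+* LaurentSeries K)
    (α β : F →+* F') (hα : ∀ y, cF' (α y) = cF y)
    (hβ : ∀ y, cF' (β y) = qExpand K ℓ (cF y))
    (hfin : letI := α.toAlgebra; Module.Finite F F')
    (hdeg : letI := α.toAlgebra; Module.finrank F F' ≤ ℓ + 1)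
    (δ : F → F) {ζ : K} (hζ : IsPrimitiveRoot ζ ℓ)
    (Ψ : LaurentSeries K →+* Ω) (σ : Fin ℓ → F' →+* Ω)
    (hσα : ∀ b y, σ b (α y) = Ψ (qExpand K ℓ (cF y)))
    (hσβ : ∀ b y, σ b (β y) = Ψ (H340.tw ℓ (ζ ^ (b : ℕ)) (cF (δ y))))
    (hdist : ∃ y₀ : F, ∃ n : ℤ, ¬ (ℓ : ℤ) ∣ n ∧ (cF (δ y₀)).coeff n ≠ 0) (y : F) :
    cF (letI := α.toAlgebra; Algebra.norm F (β y))
      = qExpand K ℓ (cF y) * (H400.secMat ℓ (cF (δ y))).det := by
  classical
  letI := α.toAlgebra
  haveI : Module.Finite F F' := hfin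
  haveI : CharZero (LaurentSeries K) :=
    charZero_of_injective_algebraMap (algebraMap K (LaurentSeries K)).injective
  haveI : CharZero F := charZero_of_inj_zero fun n hn => by
    have h0 := congrArg cF hn
    rw [map_natCast, map_zero] at h0
    exact_mod_cast h0
  have hζ0 : ζ ≠ 0 := hζ.ne_zero (NeZero.ne ℓ)
  let ι : F →+* Ω := (Ψ.comp (qExpand K ℓ)).comp cF
  let τ : Option (Fin ℓ) → F' →+* Ω := fun o => o.elim ((Ψ.comp (qExpand K ℓ)).comp cF') σ
  have hτ : ∀ i x, τ i (algebraMap F F' x) = ι x := by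
    intro i x
    cases i with
    | none =>
        show Ψ (qExpand K ℓ (cF' (α x))) = Ψ (qExpand K ℓ (cF x))
        rw [hα]
    | some b => exact hσα b x
  have hinj : Function.Injective τ := by
    obtain ⟨y₀, n, hn, hy₀⟩ := hdist
    have hns : ∀ b : Fin ℓ, τ none ≠ τ (some b) := by
      intro b h
      have h1 := DFunLike.congr_fun h (β y₀)
      have h2 : Ψ (qExpand K ℓ (cF' (β y₀))) = σ b (β y₀) := h1
      rw [hσβ, hβ] at h2
      have h3 := congrArg (fun s : LaurentSeries K => s.coeff n) (Ψ.injective h2)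
      simp only [H340.tw_coeff] at h3
      rw [qExpand_coeff_of_not_dvd ℓ _ hn] at h3
      exact mul_ne_zero (zpw_ne_zero_g (pow_ne_zero _ hζ0) n) hy₀ h3.symm
    intro i j hij
    cases i with
    | none =>
        cases j with
        | none => rfl
        | some b => exact absurd hij (hns b)
    | some b =>
        cases j with
        | none => exact absurd hij.symm (hns b)
        | some b' =>
            have h1 := DFunLike.congr_fun hij (β y₀)
            have h2 : σ b (β y₀) = σ b' (β y₀) := h1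
            rw [hσβ, hσβ] at h2
            exact congrArg some (tw_pow_injective hℓ hζ hn hy₀ (Ψ.injective h2))
  have hcard : Module.finrank F F' ≤ Fintype.card (Option (Fin ℓ)) := by
    rw [Fintype.card_option, Fintype.card_fin]
    exact hdeg
  have h := norm_eq_prod_of_embeddings hcard ι τ hτ hinj (β y)
  rw [Fintype.prod_option] at h
  have h1 : τ none (β y) = Ψ (qExpand K ℓ (qExpand K ℓ (cF y))) := by
    show Ψ (qExpand K ℓ (cF' (β y))) = _
    rw [hβ]
  have h2 : ∀ b : Fin ℓ, τ (some b) (β y) = Ψ (H340.tw ℓ (ζ ^ (b : ℕ)) (cF (δ y))) :=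
    fun b => hσβ b y
  simp only [h2] at h
  rw [h1, ← map_prod, ← qExpand_det_secMat_tw ℓ hζ, ← map_mul, ← map_mul] at h
  exact qExpand_injective (R := K) (N := ℓ) (Ψ.injective h)

end Main

end Fermat.Agent.S48.H428
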