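import Fermat.Agent.S48.H428.NormId1
import Fermat.Agent.S48.F1.RaiseF1

/-!
# S48 / RES (Tower A1) — NORMID1, unconditional (helper428)

`normId1 : H136.NormId1Statement`, from `normId1_of_deg` (embeddings `σ_b`, this directory) and the
degree bound `F1.finrankAlong_alpha1_le` (helper168, `F1/RaiseF1.lean`).
-/

set_option autoImplicit false

namespace Fermat.Agent.S48.H428

/-- **NORMID1**: `Nm_α (β y) = V_p y · det (secMat p (δ_p y))` for `ℚ̄·F1(M; p) / α(ℚ̄·F1(M))`. -/
theorem normId1 : H136.NormId1Statement :=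
  normId1_of_deg Fermat.Agent.S48.F1.finrankAlong_alpha1_le

end Fermat.Agent.S48.H428
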