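import Mathlib

/-!
# S48 / RES (Tower A1) — NORMID1, part 4: coset representatives (helper428)

For `gcd(M, p) = 1` and every residue `b` there is `h ∈ Γ₁(M)` with
`diag(p,1) · h = δ · [[1,b],[0,p]]`, `δ ∈ Γ₀(M)`, `δ₀₀ ≡ p` mod `M`.
-/

set_option autoImplicit false

open scoped MatrixGroups

namespace Fermat.Agent.S48.H428

open CongruenceSubgroup

theorem exists_rep1 {M p : ℕ} (hcop : Nat.Coprime M p) (b : ℤ) :
    ∃ h δ : SL(2, ℤ), h ∈ Gamma1 M ∧ δ ∈ Gamma0 M ∧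
      ((δ 0 0 : ℤ) : ZMod M) = (p : ZMod M) ∧
      (p : ℤ) * h 0 0 = δ 0 0 * (1 : ℕ) ∧
      (p : ℤ) * h 0 1 = δ 0 0 * b + δ 0 1 * p ∧
      h 1 0 = δ 1 0 * (1 : ℕ) ∧ h 1 1 = δ 1 0 * b + δ 1 1 * p := by
  have hc : IsCoprime (M : ℤ) (p : ℤ) := Nat.isCoprime_iff_coprime.mpr hcop
  obtain ⟨u, v, huv⟩ := hc
  -- `w = v p + M b ≡ 1` mod `M`
  set w : ℤ := v * p + M * b with hw
  have hwM : IsCoprime w (M : ℤ) := by
    refine ⟨1, u - b, ?_⟩
    rw [hw]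
    linear_combination huv
  obtain ⟨s, t, hst⟩ := hwM
  have hdet : (!![s, -t; (M : ℤ), w] : Matrix (Fin 2) (Fin 2) ℤ).det = 1 := by
    rw [Matrix.det_fin_two_of]
    linear_combination hst
  have hdet' : (!![(p : ℤ) * s, -t - b * s; (M : ℤ), v] : Matrix (Fin 2) (Fin 2) ℤ).det = 1 := by
    rw [Matrix.det_fin_two_of]
    rw [hw] at hst
    linear_combination hst
  let h : SL(2, ℤ) := ⟨!![s, -t; (M : ℤ), w], hdet⟩
  let δ : SL(2, ℤ) := ⟨!![(p : ℤ) * s, -t - b * s; (M : ℤ), v], hdet'⟩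
  have h00 : h 0 0 = s := by simp [h]
  have h01 : h 0 1 = -t := by simp [h]
  have h10 : h 1 0 = (M : ℤ) := by simp [h]
  have h11 : h 1 1 = w := by simp [h]
  have d00 : δ 0 0 = (p : ℤ) * s := by simp [δ]
  have d01 : δ 0 1 = -t - b * s := by simp [δ]
  have d10 : δ 1 0 = (M : ℤ) := by simp [δ]
  have d11 : δ 1 1 = v := by simp [δ]
  have hwM1 : ((w : ℤ) : ZMod M) = 1 := by
    have e : w = 1 + (M : ℤ) * (b - u) := by rw [hw]; linear_combination huv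
    rw [e]
    push_cast
    simp
  have hsM1 : ((s : ℤ) : ZMod M) = 1 := by
    have e := congrArg (fun z : ℤ => (z : ZMod M)) hst
    simp only [Int.cast_add, Int.cast_mul, Int.cast_natCast, Int.cast_one] at e
    rw [hwM1, mul_one] at e
    simpa using e
  refine ⟨h, δ, ?_, ?_, ?_, ?_, ?_, ?_, ?_⟩
  · rw [Gamma1_mem, h00, h11, h10]
    exact ⟨hsM1, hwM1, by simp⟩
  · rw [Gamma0_mem, d10]
    simp
  · rw [d00]
    push_cast
    rw [hsM1, mul_one]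
  · rw [h00, d00]; push_cast; ring
  · rw [h01, d00, d01]; ring
  · rw [h10, d10]; push_cast; ring
  · rw [h11, d10, d11, hw]; ring

end Fermat.Agent.S48.H428
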