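import Fermat.Agent.S48.H428.NormAv
import Fermat.Agent.S48.H428.NormRep
import Fermat.Agent.S48.F1.Basic

/-!
# S48 / RES (Tower A1) — NORMID1, part 5: the embeddings `σ_g` of `ℚ̄ · F1(M; p)` (helper428)

* `F1pL_le_avatarFieldC` : every element of `ℚ̄ · F1p M p` has an avatar of level `M p`;
* `sigF M p g : ℚ̄ · F1p M p →+* ℂ((z))` : expansion of `(avatar) ∘ g`, `z = exp(2πiτ/(Mp))`;
* `sigF_alpha` : for `g ∈ Γ₁(M)`, `sigF g ∘ α = Φ_{Mp}`;
* `sigF_beta`  : for `diag(p,1) g = δ [[1,b],[0,p]]`, `g ∈ Γ₁(M)`, and a diamond automorphism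
  `dia` for the unit `p`:  `sigF g (β y) = Φ_M ((dia y)(ζ_p^b u))`.
-/

set_option autoImplicit false
set_option linter.unusedSectionVars false
set_option linter.style.haveILetI false

noncomputable section

open ModularCurve HahnSeries UpperHalfPlane AlgebraicCurve
open scoped MatrixGroups

namespace Fermat.Agent.S48.H428

open Fermat.Agent.S24 Fermat.Agent.S24.H997 Fermat.Agent.S48.F1 CongruenceSubgroup

variable (M p : ℕ) [NeZero M] [NeZero p] [NeZero (M * p)]

/-! ### Constants -/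

theorem const_mem_avatarFieldC (L : ℕ) [NeZero L] (c : Kbar) :
    algebraMap Kbar (LaurentSeries Kbar) c ∈ avatarFieldC L :=
  mem_avatarFieldC_of_hol (A := fun _ => ιK c) (const_mem_holN L (ιK c))
    (by rw [HolBase.Φ_algebraMap]; exact InfExp.const (ιK c))

theorem sigC_const (L : ℕ) [NeZero L] (g : SL(2, ℤ)) (c : Kbar)
    (h : algebraMap Kbar (LaurentSeries Kbar) c ∈ avatarFieldC L) :
    sigC L g ⟨_, h⟩ = HahnSeries.C (ιK c) :=
  sigC_of_hol h (A := fun _ => ιK c) (const_mem_holN L (ιK c))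
    (by rw [HolBase.Φ_algebraMap]; exact InfExp.const (ιK c)) g
    (by
      have e : compSL g (fun _ : ℍ => ιK c) = fun _ => ιK c := rfl
      rw [e]
      exact InfExp.const (ιK c))

/-! ### Membership -/

/-- The rational `q`-series whose base change to `ℚ̄` has an avatar of level `M p`. -/
def avQ : IntermediateField ℚ (LaurentSeries ℚ) :=
  ((avatarFieldC (M * p)).comap (coeffEmb Kbar)).toIntermediateField fun q => by
    show coeffEmb Kbar (algebraMap ℚ (LaurentSeries ℚ) q) ∈ avatarFieldC (M * p)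
    rw [coeffEmb_algebraMap]
    exact const_mem_avatarFieldC (M * p) _

variable {M p} in
theorem mem_avQ {x : LaurentSeries ℚ} : x ∈ avQ M p ↔ coeffEmb Kbar x ∈ avatarFieldC (M * p) :=
  Iff.rfl

theorem F1_le_avQ : F1 M ≤ avQ M p := by
  rw [F1, IntermediateField.adjoin_le_iff]
  rintro x (hx | hx)
  · obtain ⟨d, hne, hd, rfl⟩ := hx
    haveI := hne
    exact (isAv_jd M hd).mem
  · obtain ⟨a, ha, rfl⟩ := hx
    exact (isAv_divGen M ha).mem

theorem F1_map_le_avQ : (F1 M).map (qExpandₐ p) ≤ avQ M p := by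
  rw [IntermediateField.map_le_iff_le_comap, F1, IntermediateField.adjoin_le_iff]
  rintro x (hx | hx)
  · obtain ⟨d, hne, hd, rfl⟩ := hx
    haveI := hne
    exact (isAv_jd M hd).mem_V
  · obtain ⟨a, ha, rfl⟩ := hx
    exact (isAv_divGen M ha).mem_V

theorem F1p_le_avQ : F1p M p ≤ avQ M p :=
  sup_le (F1_le_avQ M p) (F1_map_le_avQ M p)

theorem F1pL_le_avatarFieldC :
    (laurentBaseChange Kbar (F1p M p)).toSubfield ≤ avatarFieldC (M * p) := by
  intro f hf
  have hf' : f ∈ Subfield.closure (Set.range (algebraMap Kbar (LaurentSeries Kbar)) ∪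
      (⇑(coeffEmb Kbar) '' ((F1p M p : IntermediateField ℚ (LaurentSeries ℚ)) :
        Set (LaurentSeries ℚ)))) := hf
  revert hf'
  apply (Subfield.closure_le (t := avatarFieldC (M * p))).2
  rintro y (⟨c, rfl⟩ | ⟨x, hx, rfl⟩)
  · exact const_mem_avatarFieldC (M * p) c
  · exact F1p_le_avQ M p hx

/-- The inclusion of `ℚ̄ · F1p M p` into the field of `q`-series with avatars. -/
def incAv : ↥(F1pL Kbar M p) →+* ↥(avatarFieldC (M * p)) :=
  Subfield.inclusion (F1pL_le_avatarFieldC M p)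

variable {M p} in
@[simp] theorem coe_incAv (f : ↥(F1pL Kbar M p)) :
    ((incAv M p f : avatarFieldC (M * p)) : LaurentSeries Kbar) = (f : LaurentSeries Kbar) := rfl

/-- The embedding `σ_g` of `ℚ̄ · F1p M p`: the expansion of `(avatar) ∘ g`. -/
def sigF (g : SL(2, ℤ)) : ↥(F1pL Kbar M p) →+* LaurentSeries ℂ :=
  (sigC (M * p) g).comp (incAv M p)

variable {M p} in
theorem sigF_eq (g : SL(2, ℤ)) (f : ↥(F1pL Kbar M p))
    (hf : (f : LaurentSeries Kbar) ∈ avatarFieldC (M * p)) :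
    sigF M p g f = sigC (M * p) g ⟨(f : LaurentSeries Kbar), hf⟩ := rfl

variable {M p} in
theorem sigF_one (f : ↥(F1pL Kbar M p)) :
    sigF M p 1 f = HolBase.Φ (M * p) (f : LaurentSeries Kbar) := by
  rw [sigF, RingHom.comp_apply, sigC_one, coe_incAv]

/-! ### Generators -/

variable {M p} in
theorem sigF_alpha_of_isAv {z : LaurentSeries ℚ} {A : ℍ → ℂ} (h : IsAv M z A) (g : SL(2, ℤ))
    (hg : compSL g A = A) (x0 : ↥(F1L Kbar M))
    (hx0 : (x0 : LaurentSeries Kbar) = coeffEmb Kbar z) :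
    sigF M p g (alpha1 Kbar M p x0) = HolBase.Φ (M * p) (x0 : LaurentSeries Kbar) := by
  have hmem : coeffEmb Kbar z ∈ avatarFieldC (M * p) := h.mem
  have e : incAv M p (alpha1 Kbar M p x0) = ⟨coeffEmb Kbar z, hmem⟩ :=
    Subtype.ext (by rw [coe_incAv, coe_alpha1, hx0])
  rw [sigF, RingHom.comp_apply, e, hx0]
  exact h.sig_fix g hg hmem

variable {M p} in
theorem sigF_beta_of_isAv {z z' : LaurentSeries ℚ} {A A' : ℍ → ℂ} (h : IsAv M z A)
    (h' : IsAv M z' A') (g δ : SL(2, ℤ)) (b : ℤ)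
    (h00 : (p : ℤ) * g 0 0 = δ 0 0 * (1 : ℕ))
    (h01 : (p : ℤ) * g 0 1 = δ 0 0 * b + δ 0 1 * p)
    (h10 : g 1 0 = δ 1 0 * (1 : ℕ)) (h11 : g 1 1 = δ 1 0 * b + δ 1 1 * p)
    (hδ : compSL δ A = A') (x0 : ↥(F1L Kbar M))
    (hx0 : (x0 : LaurentSeries Kbar) = coeffEmb Kbar z) :
    sigF M p g (beta1 Kbar M p x0)
      = qExpand ℂ M (infTwist (infRoot b p) (coeffEmb ℂ z')) := by
  have hmem : coeffEmb Kbar (qExpand ℚ p z) ∈ avatarFieldC (M * p) := h.mem_V
  have e : incAv M p (beta1 Kbar M p x0) = ⟨coeffEmb Kbar (qExpand ℚ p z), hmem⟩ :=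
    Subtype.ext (by rw [coe_incAv, coe_beta1, hx0, qExpand_coeffEmb])
  rw [sigF, RingHom.comp_apply, e]
  exact h.sig_V h' g δ b h00 h01 h10 h11 hδ hmem

variable {M p} in
theorem sigF_algebraMap (g : SL(2, ℤ)) (c : Kbar) :
    sigF M p g (algebraMap Kbar ↥(F1pL Kbar M p) c) = HahnSeries.C (ιK c) := by
  have hmem := const_mem_avatarFieldC (M * p) c
  have e : incAv M p (algebraMap Kbar ↥(F1pL Kbar M p) c)
      = ⟨algebraMap Kbar (LaurentSeries Kbar) c, hmem⟩ := Subtype.ext rfl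
  rw [sigF, RingHom.comp_apply, e]
  exact sigC_const (M * p) g c hmem

/-- Ring homomorphisms out of `ℚ̄ · F1 M` agreeing on constants and on the generators agree. -/
theorem F1L_ringHom_ext {R : Type*} [DivisionRing R] (f g : ↥(F1L Kbar M) →+* R)
    (hL : ∀ c : Kbar, f (algebraMap Kbar ↥(F1L Kbar M) c) = g (algebraMap Kbar ↥(F1L Kbar M) c))
    (hS : ∀ (x0 : ↥(F1L Kbar M)) (z : LaurentSeries ℚ), z ∈ divisorExpansions M ∪ divGens M →
      (x0 : LaurentSeries Kbar) = coeffEmb Kbar z → f x0 = g x0) :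
    f = g :=
  lbc_ringHom_ext (L := Kbar) (S := divisorExpansions M ∪ divGens M) f g hL
    (fun z hz => hS _ z hz rfl)

/-! ### `σ_g ∘ α` -/

variable {M p} in
/-- For `g ∈ Γ₁(M)`, `σ_g` restricted to `α (ℚ̄ · F1 M)` is `Φ_{M p}`. -/
theorem sigF_alpha {g : SL(2, ℤ)} (hg : g ∈ Gamma1 M) (y : ↥(F1L Kbar M)) :
    sigF M p g (alpha1 Kbar M p y) = HolBase.Φ (M * p) (y : LaurentSeries Kbar) := by
  have hg0 : g ∈ Gamma0 M := Gamma1_in_Gamma0 M hg
  have key := F1L_ringHom_ext M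
    ((sigF M p g).comp (alpha1 Kbar M p).toRingHom)
    ((HolBase.Φ (M * p)).comp (F1L Kbar M).val.toRingHom) ?_ ?_
  · exact RingHom.congr_fun key y
  · intro c
    have e1 : ((sigF M p g).comp (alpha1 Kbar M p).toRingHom) (algebraMap Kbar _ c)
        = sigF M p g (algebraMap Kbar ↥(F1pL Kbar M p) c) :=
      congrArg (sigF M p g) ((alpha1 Kbar M p).commutes c)
    have e2 : ((HolBase.Φ (M * p)).comp (F1L Kbar M).val.toRingHom) (algebraMap Kbar _ c)
        = HolBase.Φ (M * p) (algebraMap Kbar (LaurentSeries Kbar) c) := rfl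
    rw [e1, e2, HolBase.Φ_algebraMap, sigF_algebraMap]
  · intro x0 z hz hx0
    have e1 : ((sigF M p g).comp (alpha1 Kbar M p).toRingHom) x0
        = sigF M p g (alpha1 Kbar M p x0) := rfl
    have e2 : ((HolBase.Φ (M * p)).comp (F1L Kbar M).val.toRingHom) x0
        = HolBase.Φ (M * p) (x0 : LaurentSeries Kbar) := rfl
    rw [e1, e2]
    rcases hz with hz | hz
    · obtain ⟨d, hne, hd, rfl⟩ := hz
      haveI := hne
      have hJ : compSL g (Jd d) = Jd d := by
        funext τ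
        exact Jd_inv M d hd g hg0 τ
      exact sigF_alpha_of_isAv (isAv_jd M hd) g hJ x0 hx0
    · obtain ⟨a, ha, rfl⟩ := hz
      have hP : compSL g (H76.pFun M a) = H76.pFun M a := by
        funext τ
        exact H76.pFun_smul_Gamma1 M a g hg τ
      exact sigF_alpha_of_isAv (isAv_divGen M ha) g hP x0 hx0

/-! ### `σ_g ∘ β` -/

variable {M p} in
/-- For `g ∈ Γ₁(M)` with `diag(p,1) g = δ [[1,b],[0,p]]` and a diamond automorphism `dia` for the
unit `u ≡ p`: `σ_g (β y) = Φ_M ((dia y)(ζ_p^b u))`. -/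
theorem sigF_beta {g δ : SL(2, ℤ)} {b : ℤ} (hδ0 : δ ∈ Gamma0 M)
    (hδp : ((δ 0 0 : ℤ) : ZMod M) = (p : ZMod M))
    (h00 : (p : ℤ) * g 0 0 = δ 0 0 * (1 : ℕ))
    (h01 : (p : ℤ) * g 0 1 = δ 0 0 * b + δ 0 1 * p)
    (h10 : g 1 0 = δ 1 0 * (1 : ℕ)) (h11 : g 1 1 = δ 1 0 * b + δ 1 1 * p)
    {u : (ZMod M)ˣ} (hu : (u : ZMod M) = (p : ZMod M))
    {dia : ↥(F1L Kbar M) ≃ₐ[Kbar] ↥(F1L Kbar M)} (hdia : IsDiamond Kbar M u dia)
    (y : ↥(F1L Kbar M)) :
    sigF M p g (beta1 Kbar M p y)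
      = qExpand ℂ M (infTwist (infRoot b p)
          (coeffMap ιK ((dia y : ↥(F1L Kbar M)) : LaurentSeries Kbar))) := by
  have key := F1L_ringHom_ext M
    ((sigF M p g).comp (beta1 Kbar M p).toRingHom)
    ((qExpand ℂ M).comp ((infTwist (infRoot b p)).comp ((coeffMap ιK).comp
      ((F1L Kbar M).val.toRingHom.comp (dia : ↥(F1L Kbar M) →+* ↥(F1L Kbar M)))))) ?_ ?_
  · exact RingHom.congr_fun key y
  · intro c
    have e1 : ((sigF M p g).comp (beta1 Kbar M p).toRingHom) (algebraMap Kbar _ c)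
        = sigF M p g (algebraMap Kbar ↥(F1pL Kbar M p) c) :=
      congrArg (sigF M p g) ((beta1 Kbar M p).commutes c)
    have e3 : ((algebraMap Kbar ↥(F1L Kbar M) c : ↥(F1L Kbar M)) : LaurentSeries Kbar)
        = HahnSeries.C c := by
      show algebraMap Kbar (LaurentSeries Kbar) c = _
      rw [algebraMap_laurentSeries_eq_single]
      rfl
    have e4 : coeffMap ιK (HahnSeries.C c) = HahnSeries.C (ιK c) := by
      show coeffMap ιK (HahnSeries.single 0 c) = HahnSeries.single 0 (ιK c)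
      exact coeffMap_single ιK 0 c
    have e2 : ((qExpand ℂ M).comp ((infTwist (infRoot b p)).comp ((coeffMap ιK).comp
        ((F1L Kbar M).val.toRingHom.comp (dia : ↥(F1L Kbar M) →+* ↥(F1L Kbar M))))))
          (algebraMap Kbar _ c) = HahnSeries.C (ιK c) := by
      show qExpand ℂ M (infTwist (infRoot b p) (coeffMap ιK
        ((dia (algebraMap Kbar ↥(F1L Kbar M) c) : ↥(F1L Kbar M)) : LaurentSeries Kbar))) = _
      rw [AlgEquiv.commutes, e3, e4, infTwist_C, qExpand_C]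
    rw [e1, e2, sigF_algebraMap]
  · intro x0 z hz hx0c
    show sigF M p g (beta1 Kbar M p x0) = qExpand ℂ M (infTwist (infRoot b p)
      (coeffMap ιK ((dia x0 : ↥(F1L Kbar M)) : LaurentSeries Kbar)))
    rcases hz with hz | hz
    · obtain ⟨d, hne, hd, rfl⟩ := hz
      haveI := hne
      -- the diamond fixes `j(q^d)`
      have hfix : dia x0 = x0 :=
        hdia.1 x0 (by
          rw [hx0c]
          exact coeffEmb_mem_laurentBaseChange Kbar
            (IntermediateField.subset_adjoin ℚ _ (mem_divisorExpansions M hd)))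
      rw [hfix, hx0c, coeffMap_ιK_coeffEmb_g]
      exact sigF_beta_of_isAv (isAv_jd M hd) (isAv_jd M hd) g δ b h00 h01 h10 h11
        (by funext τ; exact Jd_inv M d hd δ hδ0 τ) x0 hx0c
    · obtain ⟨a, ha, rfl⟩ := hz
      -- the diamond maps `P_a` to `P_{p a}`
      have hpa : (u : ZMod M) * a ≠ 0 := by
        intro h0
        exact ha (by simpa using congrArg (fun t => ((u⁻¹ : (ZMod M)ˣ) : ZMod M) * t) h0)
      have hmap : ((dia x0 : ↥(F1L Kbar M)) : LaurentSeries Kbar)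
          = coeffEmb Kbar (divGen M ((u : ZMod M) * a)) := by
        have h := hdia.2 a x0 ⟨coeffEmb Kbar (divGen M ((u : ZMod M) * a)),
              coeffEmb_mem_laurentBaseChange Kbar (divGen_mem_F1 M hpa)⟩ ha hx0c rfl
        rw [h]
      rw [hmap, coeffMap_ιK_coeffEmb_g]
      exact sigF_beta_of_isAv (isAv_divGen M ha) (isAv_divGen M hpa) g δ b h00 h01 h10 h11
        (by rw [H76.compSL_pFun M a δ hδ0, hδp, hu, mul_comm]) x0 hx0c

end Fermat.Agent.S48.H428
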