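import Fermat.Agent.S48.H428.DivFun

/-!
# S48 / INT piece RES (helper428): restriction of the level

`restrict : INT.RestrictStatement` (exact shape of `Fermat/Agent/S48/INT/Spec.lean`): a cusp form
on `Γ₁(N)` is a cusp form on `Γ₁(M)` for `N ∣ M` (same function).
-/

set_option autoImplicit false

open CongruenceSubgroup UpperHalfPlane
open scoped MatrixGroups ModularForm Manifold

namespace Fermat.Agent.S48.H428

/-- `Γ₁(M) ≤ Γ₁(N)` as subgroups of `GL₂(ℝ)`. -/
lemma gamma1_mapGL_le_of_dvd {N M : ℕ} (h : N ∣ M) :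
    (Gamma1 M : Subgroup (GL (Fin 2) ℝ)) ≤ (Gamma1 N : Subgroup (GL (Fin 2) ℝ)) :=
  Subgroup.map_mono (gamma1_le_of_dvd h)

/-- Restriction of the level of a cusp form, as a map. -/
def restrictCuspForm {N M : ℕ} (h : N ∣ M) {k : ℤ} (f : CuspForm (Gamma1 N) k) :
    CuspForm (Gamma1 M) k where
  toFun := f
  slash_action_eq' γ hγ :=
    SlashInvariantForm.slash_action_eqn f γ (gamma1_mapGL_le_of_dvd h hγ)
  holo' := CuspFormClass.holo f
  zero_at_cusps' hc := CuspFormClass.zero_at_cusps f (hc.mono (gamma1_mapGL_le_of_dvd h))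

@[simp]
lemma coe_restrictCuspForm {N M : ℕ} (h : N ∣ M) {k : ℤ} (f : CuspForm (Gamma1 N) k) :
    (restrictCuspForm h f : ℍ → ℂ) = f := rfl

/-- Restriction of the level of a modular form, as a map. -/
def restrictModularForm {N M : ℕ} (h : N ∣ M) {k : ℤ} (f : ModularForm (Gamma1 N) k) :
    ModularForm (Gamma1 M) k where
  toFun := f
  slash_action_eq' γ hγ :=
    SlashInvariantForm.slash_action_eqn f γ (gamma1_mapGL_le_of_dvd h hγ)
  holo' := ModularFormClass.holo f
  bdd_at_cusps' hc := ModularFormClass.bdd_at_cusps f (hc.mono (gamma1_mapGL_le_of_dvd h))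

@[simp]
lemma coe_restrictModularForm {N M : ℕ} (h : N ∣ M) {k : ℤ} (f : ModularForm (Gamma1 N) k) :
    (restrictModularForm h f : ℍ → ℂ) = f := rfl

/-- **RES.** -/
theorem restrict : INT.RestrictStatement := by
  intro N M k h _ f
  exact ⟨restrictCuspForm h f, rfl⟩

end Fermat.Agent.S48.H428
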