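import Fermat.Agent.S48.INT.Spec
import Fermat.Agent.S48.H308.Values

/-!
# S48 / INT piece VAL' (helper428): finitely many eigenvalues outside a set of small density

`values' : INT.ValuesPiece'`, i.e. `RankinStatement → EigenConjStatement' → ValuesStatement`
(exact shape of `Fermat/Agent/S48/INT/Spec.lean`).  This is `H308.values` (VAL, D–S Prop. 5.5)
with the conjugate forms `f'_τ` living at levels `M_τ` which are multiples of `N`: the finitely
many primes dividing some `M_τ` are put into the finite set of values.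
-/

set_option autoImplicit false
set_option linter.style.haveILetI false

namespace Fermat.Agent.S48.H428

open Fermat.Agent.S48.Top Fermat.Agent.S48.INT Fermat.Agent.Lib.Cheb.SpecQ

/-- **VAL'**, exact `INT/Spec.lean` shape. -/
theorem values' : INT.ValuesPiece' := by
  intro hR hE N _ ε f hf η hη
  classical
  obtain ⟨K, hKfd, hKa, hKτ⟩ := hE N ε f hf
  haveI : FiniteDimensional ℚ K := hKfd
  haveI : NumberField K := ⟨⟩
  choose M hMne ε' f' hNM hf' hcoef using hKτ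
  choose C hC using fun τ : K →ₐ[ℚ] ℂ => @hR (M τ) (hMne τ) (ε' τ) (f' τ) (hf' τ)
  set d : ℕ := Fintype.card (K →ₐ[ℚ] ℂ) with hd
  have hdpos : 0 < d := Fintype.card_pos_iff.mpr ⟨K.val⟩
  have hdR : (0 : ℝ) < d := by exact_mod_cast hdpos
  set c : ℝ := d / η with hc
  have hcpos : 0 < c := div_pos hdR hη
  have hfin := NumberField.Embeddings.finite_of_norm_le K ℂ (Real.sqrt c)
  -- the bad primes
  set Mtot : ℕ := ∏ τ : K →ₐ[ℚ] ℂ, M τ with hMtot
  have hMtot0 : Mtot ≠ 0 := Finset.prod_ne_zero_iff.mpr fun τ _ => (hMne τ).ne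
  refine ⟨hfin.toFinset.image (fun x : K => (x : ℂ)) ∪
    Mtot.primeFactors.image (fun p => ModularFormClass.qCoeff f p), ?_⟩
  -- for every exceptional prime some conjugate is large
  have hex : ∀ p : ℕ, p.Prime → ¬ p ∣ N →
      ModularFormClass.qCoeff f p ∉ hfin.toFinset.image (fun x : K => (x : ℂ)) ∪
        Mtot.primeFactors.image (fun p => ModularFormClass.qCoeff f p) →
      (∀ τ : K →ₐ[ℚ] ℂ, ¬ p ∣ M τ) ∧
      ∃ τ : K →ₐ[ℚ] ℂ, c ≤ ‖ModularFormClass.qCoeff (f' τ) p‖ ^ 2 := by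
    intro p hp hpN hY
    rw [Finset.mem_union, not_or] at hY
    obtain ⟨hY, hYbad⟩ := hY
    have hpM : ∀ τ : K →ₐ[ℚ] ℂ, ¬ p ∣ M τ := by
      intro τ hdiv
      apply hYbad
      rw [Finset.mem_image]
      refine ⟨p, ?_, rfl⟩
      rw [Nat.mem_primeFactors]
      exact ⟨hp, hdiv.trans (Finset.dvd_prod_of_mem M (Finset.mem_univ τ)), hMtot0⟩
    refine ⟨hpM, ?_⟩
    obtain ⟨hmem, hint⟩ := hKa p hp hpN
    set x : K := ⟨ModularFormClass.qCoeff f p, hmem⟩ with hx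
    have hxint : IsIntegral ℤ x := by
      have : IsIntegral ℤ (algebraMap K ℂ x) := hint
      exact (isIntegral_algebraMap_iff (algebraMap K ℂ).injective).mp this
    have hnot : ¬ (IsIntegral ℤ x ∧ ∀ φ : K →+* ℂ, ‖φ x‖ ≤ Real.sqrt c) := by
      intro hcon
      apply hY
      rw [Finset.mem_image]
      exact ⟨x, hfin.mem_toFinset.mpr hcon, rfl⟩
    have hφ : ∃ φ : K →+* ℂ, Real.sqrt c < ‖φ x‖ := by
      by_contra hcon
      push Not at hcon
      exact hnot ⟨hxint, hcon⟩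
    obtain ⟨φ, hφ⟩ := hφ
    refine ⟨φ.toRatAlgHom, ?_⟩
    rw [hcoef φ.toRatAlgHom p hp (hpM _) x rfl]
    have h1 : Real.sqrt c ^ 2 = c := Real.sq_sqrt hcpos.le
    have h2 : Real.sqrt c ^ 2 ≤ ‖φ x‖ ^ 2 :=
      pow_le_pow_left₀ (Real.sqrt_nonneg c) hφ.le 2
    have h3 : (φ.toRatAlgHom : K → ℂ) x = φ x := rfl
    rw [h3]
    linarith
  refine H308.hasUpperDensity_of_bound _ η ((∑ τ : K →ₐ[ℚ] ℂ, C τ) / c) ?_
  intro s hs hs2 T hT
  have hL : 0 ≤ Real.log (1 / (s - 1)) := by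
    apply Real.log_nonneg
    rw [le_div_iff₀ (by linarith)]
    linarith
  -- choose a large conjugate for every prime of `T`
  have hT' : ∀ p ∈ T, ∃ τ : K →ₐ[ℚ] ℂ, c ≤ ‖ModularFormClass.qCoeff (f' τ) p‖ ^ 2 :=
    fun p hp => (hex p (hT p hp).1 (hT p hp).2.1 (hT p hp).2.2).2
  have hT'' : ∀ p : ℕ, ∃ τ : K →ₐ[ℚ] ℂ, p ∈ T → c ≤ ‖ModularFormClass.qCoeff (f' τ) p‖ ^ 2 := by
    intro p
    by_cases hp : p ∈ T
    · obtain ⟨τ, hτ⟩ := hT' p hp
      exact ⟨τ, fun _ => hτ⟩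
    · exact ⟨K.val, fun h => absurd h hp⟩
  choose τof hτof using hT''
  have hfib : ∑ p ∈ T, (p : ℝ) ^ (-s) =
      ∑ τ : K →ₐ[ℚ] ℂ, ∑ p ∈ T with τof p = τ, (p : ℝ) ^ (-s) :=
    (Finset.sum_fiberwise T τof fun p => (p : ℝ) ^ (-s)).symm
  have hτ : ∀ τ : K →ₐ[ℚ] ℂ, ∑ p ∈ T with τof p = τ, (p : ℝ) ^ (-s) ≤
      (Real.log (1 / (s - 1)) + C τ) / c := by
    intro τ
    rw [le_div_iff₀ hcpos, Finset.sum_mul]
    refine le_trans ?_ (hC τ s hs hs2 (T.filter fun p => τof p = τ) ?_)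
    · refine Finset.sum_le_sum fun p hp => ?_
      rw [Finset.mem_filter] at hp
      have h1 := hτof p hp.1
      rw [hp.2] at h1
      rw [mul_comm]
      exact mul_le_mul_of_nonneg_right h1 (Real.rpow_nonneg (Nat.cast_nonneg p) _)
    · intro p hp
      rw [Finset.mem_filter] at hp
      exact ⟨(hT p hp.1).1, (hex p (hT p hp.1).1 (hT p hp.1).2.1 (hT p hp.1).2.2).1 τ⟩
  calc ∑ p ∈ T, (p : ℝ) ^ (-s)
      = ∑ τ : K →ₐ[ℚ] ℂ, ∑ p ∈ T with τof p = τ, (p : ℝ) ^ (-s) := hfib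
    _ ≤ ∑ τ : K →ₐ[ℚ] ℂ, (Real.log (1 / (s - 1)) + C τ) / c :=
        Finset.sum_le_sum fun τ _ => hτ τ
    _ = η * Real.log (1 / (s - 1)) + (∑ τ : K →ₐ[ℚ] ℂ, C τ) / c := by
        rw [← Finset.sum_div, Finset.sum_add_distrib, Finset.sum_const, Finset.card_univ,
          nsmul_eq_mul, add_div]
        congr 1
        rw [hc, ← hd]
        field_simp

end Fermat.Agent.S48.H428
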